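import Fermat.Agent.Deuring.Degree
import Fermat.Agent.RR.Weil

/-!
# Deuring reduction of divisors, from equality of genera
-/

set_option autoImplicit false

open AlgebraicCurve WithZero Module Polynomial
open scoped IntermediateField
open Fermat.Agent.RR Fermat.Agent.FF

namespace Fermat.Agent.Deuring

section Instances

variable {K F : Type*} [Field K] [Field F] [Algebra K F] [IsFF K F]

theorem nonempty_place : Nonempty (Place K F) := exists_place

theorem finiteResidue (v : Place K F) : v.FiniteResidue := ⟨inferInstance⟩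

end Instances

section One

variable {K F : Type*} [Field K] [Field F] [Algebra K F] [IsFF K F]

attribute [local instance] nonempty_place finiteResidue

theorem mem_L_add_div {D : Divisor K F} {f g : F} (hf : f ≠ 0) :
    g ∈ riemannRochSpace (D + div f) ↔ f * g ∈ riemannRochSpace D := by
  rcases eq_or_ne g 0 with rfl | hg
  · simp
  rw [mem_L_iff hg, mem_L_iff (mul_ne_zero hf hg)]
  refine forall_congr' fun v => ?_
  rw [v.ord_mul hf hg, Finsupp.add_apply, div_apply]
  constructor <;> intro h <;> omega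

theorem degree_pole {f : F} (hf : Transcendental K f) :
    Divisor.degree (pole f : Divisor K F) = finrank K⟮f⟯ F := by
  have h1 : (pole f : Divisor K F) = zeroDiv f⁻¹ := by
    ext v
    rw [pole_apply, zeroDiv_apply, v.ord_inv]
  rw [h1, degree_zeroDiv (transcendental_inv hf), isFF_nontrivial_adjoin_inv]

theorem ell_large [IsAlgClosed K] {D : Divisor K F}
    (hD : 2 * (genusFF K F : ℤ) - 2 < Divisor.degree D) :
    (ell D : ℤ) = Divisor.degree D + 1 - genusFF K F := by
  obtain ⟨x, hx⟩ := IsFF.exists_transcendental (K := K) (F := F)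
  have := IsFF.finite_adjoin x hx
  have h0 : ell (0 : Divisor K F) = 1 := ell_zero
  have := RR.ell_eq (K := K) x hx (D := D) (by rw [h0]; push_cast; omega)
  rw [this, h0]
  push_cast
  ring

theorem degree_single_one [IsAlgClosed K] (P : Place K F) (n : ℤ) :
    Divisor.degree (Finsupp.single P n : Divisor K F) = n := by
  rw [Divisor.degree_single, deg_eq_one, Nat.cast_one, mul_one]

/-- Crude bound for small degree. -/
theorem ell_le_genus [IsAlgClosed K] {D : Divisor K F}
    (hD : Divisor.degree D ≤ 2 * (genusFF K F : ℤ) - 2) :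
    ell D ≤ genusFF K F := by
  obtain ⟨P⟩ := nonempty_place (K := K) (F := F)
  set n : ℤ := 2 * (genusFF K F : ℤ) - 1 - Divisor.degree D with hn
  have h1 : D ≤ D + Finsupp.single P n := by
    have : (0 : Divisor K F) ≤ Finsupp.single P n := by
      intro v
      classical
      rw [Finsupp.single_apply]
      split_ifs
      · simp only [Finsupp.coe_zero, Pi.zero_apply]; omega
      · rfl
    exact le_add_of_nonneg_right this
  have h2 := ell_mono h1
  have h3 : Divisor.degree (D + Finsupp.single P n) = 2 * (genusFF K F : ℤ) - 1 := by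
    rw [map_add, degree_single_one, hn]; ring
  have h4 := ell_large (D := D + Finsupp.single P n) (by rw [h3]; omega)
  rw [h3] at h4
  omega

end One

namespace GaussData

variable {K F k F' : Type*} [Field K] [Field F] [Algebra K F] [Field k] [Field F']
    [Algebra k F'] (G : GaussData K F k F')

theorem inv_mem_of_ρ_ne_zero {f : F} (hf : f ∈ G.O) (h : G.ρ ⟨f, hf⟩ ≠ 0) : f⁻¹ ∈ G.O := by
  by_contra hcon
  apply h
  rw [G.ρ_eq_zero_iff, ValuationSubring.mem_nonunits_iff]
  have h1 : G.O.valuation f⁻¹ > 1 := by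
    rw [gt_iff_lt, ← not_le, ValuationSubring.valuation_le_one_iff]
    exact hcon
  rw [map_inv₀] at h1
  change G.O.valuation f < 1
  exact (one_lt_inv₀ (by
    rw [zero_lt_iff]
    intro h0
    rw [h0, inv_zero] at h1
    exact absurd h1 (by simp))).mp h1

theorem ρ_inv {f : F} (hf : f ∈ G.O) (h : G.ρ ⟨f, hf⟩ ≠ 0) :
    G.ρ ⟨f⁻¹, G.inv_mem_of_ρ_ne_zero hf h⟩ = (G.ρ ⟨f, hf⟩)⁻¹ := by
  have hf0 : f ≠ 0 := by
    rintro rfl
    exact h (map_zero G.ρ)
  apply eq_inv_of_mul_eq_one_left
  rw [← map_mul, ← map_one G.ρ]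
  congr 1
  ext
  simp [inv_mul_cancel₀ hf0]

theorem redSpace_scale {V V' : Submodule K F} {f : F} (hf : f ∈ G.O) (h : G.ρ ⟨f, hf⟩ ≠ 0)
    (hVV' : ∀ g, g ∈ V' ↔ f * g ∈ V) (w : F') :
    w ∈ G.redSpace V' ↔ G.ρ ⟨f, hf⟩ * w ∈ G.redSpace V := by
  have hf0 : f ≠ 0 := by
    rintro rfl
    exact h (map_zero G.ρ)
  constructor
  · rintro ⟨g, hg, hgO, rfl⟩
    exact ⟨f * g, (hVV' g).mp hg, G.O.mul_mem _ _ hf hgO, G.ρ_mul hf hgO _⟩
  · rintro ⟨g, hg, hgO, hgw⟩
    have hfi := G.inv_mem_of_ρ_ne_zero hf h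
    refine ⟨f⁻¹ * g, (hVV' _).mpr (by rwa [mul_inv_cancel_left₀ hf0]),
      G.O.mul_mem _ _ hfi hgO, ?_⟩
    rw [G.ρ_mul hfi hgO, G.ρ_inv hf h, hgw, inv_mul_cancel_left₀ h]

section

variable [IsFF K F] [IsFF k F'] [IsAlgClosed K] [IsAlgClosed k]

attribute [local instance] nonempty_place finiteResidue

theorem degree_sup_le_aux {D : Divisor K F} (hD : 0 ≤ D) {E : Divisor k F'}
    (hE : IsSup (G.redSpace (riemannRochSpace D)) E) :
    Divisor.degree E ≤ Divisor.degree D := by
  classical
  have h1mem : (1 : F) ∈ riemannRochSpace D := by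
    rw [mem_L_iff one_ne_zero]
    intro v
    rw [v.ord_one]
    have := hD v
    simp only [Finsupp.coe_zero, Pi.zero_apply] at this
    omega
  have hE0 : 0 ≤ E := by
    intro v
    have h1 : (1 : F') ∈ G.redSpace (riemannRochSpace D) :=
      ⟨1, h1mem, G.O.one_mem, map_one G.ρ⟩
    have := (mem_L_iff one_ne_zero).mp (hE.1 h1) v
    rw [v.ord_one] at this
    simp only [Finsupp.coe_zero, Pi.zero_apply]
    omega
  have hinf : Infinite k := IsAlgClosed.instInfinite
  obtain ⟨w, hw, hw0, hwE⟩ := hE.exists_generic E.support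
  have hpole : (pole w : Divisor k F') = E := by
    ext v
    rw [pole_apply]
    by_cases hv : v ∈ E.support
    · rw [hwE v hv, max_eq_left]
      exact hE0 v
    · rw [Finsupp.notMem_support_iff] at hv
      have := (mem_L_iff hw0).mp (hE.1 hw) v
      rw [hv] at this ⊢
      rw [max_eq_right]
      omega
  obtain ⟨f, hf, hfO, rfl⟩ := hw
  by_cases halg : Transcendental k (G.ρ ⟨f, hfO⟩)
  · have htr : Transcendental K f := G.transcendental_of_ρ ⟨f, hfO⟩ halg
    have := IsFF.finite_adjoin f htr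
    have := IsFF.finite_adjoin _ halg
    have h2 := G.finrank_adjoin_le ⟨f, hfO⟩ halg
    rw [← hpole, degree_pole halg]
    calc ((finrank k⟮G.ρ ⟨f, hfO⟩⟯ F' : ℕ) : ℤ) ≤ (finrank K⟮f⟯ F : ℕ) := by exact_mod_cast h2
      _ = Divisor.degree (pole f : Divisor K F) := (degree_pole htr).symm
      _ ≤ Divisor.degree D := by
        apply RR.degree_mono
        intro v
        rw [pole_apply]
        rcases eq_or_ne f 0 with rfl | hf0
        · simp only [Place.ord_zero, neg_zero, max_self]
          exact hD v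
        · have := (mem_L_iff hf0).mp hf v
          have h3 := hD v
          simp only [Finsupp.coe_zero, Pi.zero_apply] at h3
          exact max_le (by omega) h3
  · have h3 : IsAlgebraic k (G.ρ ⟨f, hfO⟩) := by
      by_contra h
      exact halg h
    have h4 : E = 0 := by
      rw [← hpole]
      ext v
      rw [pole_apply, algebraic_ord_eq_zero v h3 hw0]
      simp
    rw [h4, map_zero]
    exact degree_nonneg hD

theorem degree_sup_le {D : Divisor K F} (hD : riemannRochSpace D ≠ ⊥) {E : Divisor k F'}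
    (hE : IsSup (G.redSpace (riemannRochSpace D)) E) :
    Divisor.degree E ≤ Divisor.degree D := by
  obtain ⟨f₀, hf₀, hf₀0⟩ := (Submodule.ne_bot_iff _).mp hD
  obtain ⟨c, hc, hO, hne⟩ := G.exists_scale hf₀0
  set f := c • f₀ with hf
  have hfD : f ∈ riemannRochSpace D := Submodule.smul_mem _ _ hf₀
  have hf0 : f ≠ 0 := by
    rintro h0
    apply hne
    have : (⟨f, hO⟩ : G.O) = 0 := Subtype.ext h0
    rw [this, map_zero]
  have h1 : 0 ≤ D + div f := by
    rw [add_comm]
    exact (mem_riemannRochSpace_iff_div hf0).mp hfD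
  have h2 : IsSup (G.redSpace (riemannRochSpace (D + div f))) (E + div (G.ρ ⟨f, hO⟩)) :=
    hE.scale hne fun w => G.redSpace_scale hO hne (fun g => mem_L_add_div hf0) w
  have h3 := G.degree_sup_le_aux h1 h2
  rwa [map_add, map_add, degree_div, degree_div, add_zero, add_zero] at h3

variable (hg : genusFF K F = genusFF k F')

include hg in
theorem exists_sup {D : Divisor K F} (hD : 2 * (genusFF K F : ℤ) ≤ Divisor.degree D) :
    ∃ E : Divisor k F', IsSup (G.redSpace (riemannRochSpace D)) E ∧
      Divisor.degree E = Divisor.degree D ∧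
      G.redSpace (riemannRochSpace D) = riemannRochSpace E := by
  have hell := ell_large (D := D) (by omega)
  have hbot : riemannRochSpace D ≠ ⊥ := by
    intro h
    have : ell D = 0 := by rw [ell, h, finrank_bot]
    rw [this] at hell
    push_cast at hell
    omega
  obtain ⟨E, hE⟩ := IsSup.exists _ (G.redSpace_ne_bot hbot)
  have hle := G.degree_sup_le hbot hE
  have hfr : finrank k (G.redSpace (riemannRochSpace D)) = ell D := G.finrank_redSpace _
  have hWE : ell D ≤ ell E := by
    rw [← hfr]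
    exact Submodule.finrank_mono hE.1
  have hEgt : 2 * (genusFF k F' : ℤ) - 2 < Divisor.degree E := by
    by_contra hcon
    have := ell_le_genus (D := E) (by omega)
    omega
  have hellE := ell_large hEgt
  have hdeg : Divisor.degree E = Divisor.degree D := by omega
  refine ⟨E, hE, hdeg, ?_⟩
  apply Submodule.eq_of_le_of_finrank_eq hE.1
  rw [hfr]
  change ell D = ell E
  omega

/-- The sup divisor. -/
noncomputable def T (D : Divisor K F) : Divisor k F' := by
  classical
  exact if h : ∃ E : Divisor k F', IsSup (G.redSpace (riemannRochSpace D)) E then h.choose else 0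

omit [IsFF K F] [IsFF k F'] [IsAlgClosed K] [IsAlgClosed k] in
theorem T_eq_of_isSup {D : Divisor K F} {E : Divisor k F'}
    (hE : IsSup (G.redSpace (riemannRochSpace D)) E) : G.T D = E := by
  have h : ∃ E : Divisor k F', IsSup (G.redSpace (riemannRochSpace D)) E := ⟨E, hE⟩
  unfold T
  rw [dif_pos h]
  exact h.choose_spec.unique hE

include hg in
theorem T_spec {D : Divisor K F} (hD : 2 * (genusFF K F : ℤ) ≤ Divisor.degree D) :
    IsSup (G.redSpace (riemannRochSpace D)) (G.T D) ∧
      Divisor.degree (G.T D) = Divisor.degree D ∧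
      G.redSpace (riemannRochSpace D) = riemannRochSpace (G.T D) := by
  obtain ⟨E, h1, h2, h3⟩ := G.exists_sup hg hD
  rw [G.T_eq_of_isSup h1]
  exact ⟨h1, h2, h3⟩

include hg in
theorem T_add {D₁ D₂ : Divisor K F} (h₁ : 2 * (genusFF K F : ℤ) ≤ Divisor.degree D₁)
    (h₂ : 2 * (genusFF K F : ℤ) ≤ Divisor.degree D₂) : G.T (D₁ + D₂) = G.T D₁ + G.T D₂ := by
  obtain ⟨a1, a2, a3⟩ := G.T_spec hg h₁
  obtain ⟨b1, b2, b3⟩ := G.T_spec hg h₂
  obtain ⟨c1, c2, c3⟩ := G.T_spec hg (D := D₁ + D₂) (by
    rw [map_add]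
    have : (0 : ℤ) ≤ genusFF K F := Int.natCast_nonneg _
    omega)
  have hle : G.T D₁ + G.T D₂ ≤ G.T (D₁ + D₂) := by
    apply a1.mul b1
    intro w₁ hw₁ w₂ hw₂
    rw [← c3]
    exact G.mul_mem_redSpace (fun v hv w hw => mem_L_mul hv hw) hw₁ hw₂
  refine (eq_of_le_of_degree_le hle ?_).symm
  rw [map_add, a2, b2, c2, map_add]

include hg in
theorem T_add_div {D : Divisor K F} (hD : 2 * (genusFF K F : ℤ) ≤ Divisor.degree D) {f : F}
    (hf : f ∈ G.O) (h : G.ρ ⟨f, hf⟩ ≠ 0) : G.T (D + div f) = G.T D + div (G.ρ ⟨f, hf⟩) := by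
  have hf0 : f ≠ 0 := by
    rintro rfl
    exact h (map_zero G.ρ)
  obtain ⟨a1, a2, a3⟩ := G.T_spec hg hD
  apply G.T_eq_of_isSup
  exact a1.scale h fun w => G.redSpace_scale hf h (fun g => mem_L_add_div hf0) w

end

end GaussData

/-! ### Extension of a partially defined additive function -/

section Extend

variable {G H : Type*} [AddCommGroup G] [AddCommGroup H]

theorem exists_extend (deg : G →+ ℤ) (P : G) (hP : deg P = 1) (c : ℤ) (T : G → H)
    (hT : ∀ a b, c ≤ deg a → c ≤ deg b → T (a + b) = T a + T b) :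
    ∃ τ : G →+ H, ∀ a b, c ≤ deg b → c ≤ deg (a + b) → τ a = T (a + b) - T b := by
  classical
  set N : G → ℕ := fun a => c.natAbs + (deg a).natAbs with hN
  have hdegn : ∀ n : ℕ, deg (n • P) = n := by
    intro n; rw [map_nsmul, hP, nsmul_eq_mul, mul_one]
  -- independence of the choice
  have key : ∀ a b b' : G, c ≤ deg b → c ≤ deg (a + b) → c ≤ deg b' → c ≤ deg (a + b') →
      T (a + b) - T b = T (a + b') - T b' := by
    intro a b b' h1 h2 h3 h4
    rw [sub_eq_sub_iff_add_eq_add, ← hT _ _ h2 h3, ← hT _ _ h4 h1]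
    congr 1
    abel
  have hgood : ∀ (a : G) (n : ℕ), N a ≤ n → c ≤ deg (n • P) ∧ c ≤ deg (a + n • P) := by
    intro a n hn
    rw [map_add, hdegn]
    simp only [hN] at hn
    omega
  let τ : G → H := fun a => T (a + N a • P) - T (N a • P)
  have hτ : ∀ a b, c ≤ deg b → c ≤ deg (a + b) → τ a = T (a + b) - T b := by
    intro a b h1 h2
    obtain ⟨h3, h4⟩ := hgood a (N a) le_rfl
    exact key a _ _ h3 h4 h1 h2
  refine ⟨AddMonoidHom.mk' τ ?_, hτ⟩
  intro a b
  set n := N a + N b + N (a + b) with hn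
  obtain ⟨a1, a2⟩ := hgood a n (by omega)
  obtain ⟨b1, b2⟩ := hgood b n (by omega)
  obtain ⟨c1, c2⟩ := hgood (a + b) (n + n) (by omega)
  rw [hτ a _ a1 a2, hτ b _ b1 b2, hτ (a + b) _ c1 c2]
  have h1 : T ((n + n) • P) = T (n • P) + T (n • P) := by
    rw [add_smul, hT _ _ a1 a1]
  have h2 : T (a + b + (n + n) • P) = T (a + n • P) + T (b + n • P) := by
    rw [← hT _ _ a2 b2]
    congr 1
    rw [add_smul]
    abel
  rw [h1, h2]
  abel

end Extend

namespace GaussData

variable {K F k F' : Type*} [Field K] [Field F] [Algebra K F] [Field k] [Field F']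
    [Algebra k F'] (G : GaussData K F k F')
    [IsFF K F] [IsFF k F'] [IsAlgClosed K] [IsAlgClosed k]

attribute [local instance] nonempty_place finiteResidue

/-- **Deuring reduction**: equality of genera gives the reduction map on divisors. -/
theorem exists_redMap (hg : genusFF K F = genusFF k F') :
    ∃ R : RedMap G, R.n₀ = 2 * (genusFF K F : ℤ) := by
  obtain ⟨P⟩ := nonempty_place (K := K) (F := F)
  set c : ℤ := 2 * (genusFF K F : ℤ) with hc
  have hc0 : 0 ≤ c := by rw [hc]; positivity
  obtain ⟨τ, hτ⟩ := exists_extend (Divisor.degree (K := K) (F := F)) (Finsupp.single P 1)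
    (degree_single_one P 1) c G.T (fun a b ha hb => G.T_add hg ha hb)
  have hbig : ∀ D : Divisor K F, ∃ B : Divisor K F, c ≤ Divisor.degree B ∧
      c ≤ Divisor.degree (D + B) := by
    intro D
    refine ⟨Finsupp.single P (c + |Divisor.degree D|), ?_, ?_⟩
    · rw [degree_single_one]
      have := abs_nonneg (Divisor.degree D)
      omega
    · rw [map_add, degree_single_one]
      have := neg_abs_le (Divisor.degree D)
      omega
  have hdeg : ∀ D, Divisor.degree (τ D) = Divisor.degree D := by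
    intro D
    obtain ⟨B, h1, h2⟩ := hbig D
    rw [hτ D B h1 h2, map_sub, (G.T_spec hg h1).2.1, (G.T_spec hg h2).2.1, map_add]
    ring
  have hTτ : ∀ D, c ≤ Divisor.degree D → τ D = G.T D := by
    intro D hD
    rw [hτ D D hD (by rw [map_add]; omega), G.T_add hg hD hD]
    abel
  refine ⟨⟨τ, hdeg, ?_, ?_, ?_, c, ?_⟩, rfl⟩
  · intro D hD
    obtain ⟨B, h1, h2⟩ := hbig D
    rw [hτ D B h1 h2, sub_nonneg]
    apply (G.T_spec hg h1).1.mono (G.T_spec hg h2).1
    apply G.redSpace_mono
    apply L_mono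
    exact le_add_of_nonneg_left hD
  · intro f hf h
    obtain ⟨B, h1, h2⟩ := hbig (div f)
    rw [hτ _ B h1 h2, add_comm (div f) B, G.T_add_div hg h1 hf h]
    abel
  · intro D w hw
    obtain ⟨B, h1, h2⟩ := hbig D
    rw [hτ D B h1 h2]
    apply (G.T_spec hg h1).1.mem_of_mul
    intro z hz
    rw [← (G.T_spec hg h2).2.2]
    exact G.mul_mem_redSpace (fun v hv w hw => mem_L_mul hv hw) hw hz
  · intro D hD
    rw [hTτ D hD]
    exact (G.T_spec hg hD).2.2

end GaussData

end Fermat.Agent.Deuring
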