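import Fermat.Agent.Deuring.Data
import Fermat.Agent.FF.AlgClosed
import Fermat.Agent.FF.Construct

/-!
# Degree comparison `[F' : k(ȳ)] ≤ [F : K(y)]`
-/

set_option autoImplicit false

open AlgebraicCurve WithZero Module Polynomial
open scoped IntermediateField
open Fermat.Agent.RR

namespace Fermat.Agent.Deuring

section Poly

variable {K F : Type*} [Field K] [Field F] [Algebra K F]

theorem aeval_mem_adjoin (y : F) (p : K[X]) : aeval y p ∈ K⟮y⟯ :=
  IntermediateField.algebra_adjoin_le_adjoin K {y} (aeval_mem_adjoin_singleton K y)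

theorem linearIndependent_adjoin_iff {y : F} {ι : Type*} [Fintype ι] (b : ι → F) :
    LinearIndependent K⟮y⟯ b ↔
      ∀ p : ι → K[X], ∑ i, aeval y (p i) * b i = 0 → ∀ i, aeval y (p i) = 0 := by
  classical
  rw [Fintype.linearIndependent_iff]
  constructor
  · intro h p hp i
    have := h (fun i => ⟨aeval y (p i), aeval_mem_adjoin y (p i)⟩) (by
      simpa [Algebra.smul_def] using hp) i
    simpa using congrArg Subtype.val this
  · intro h c hc i
    have h1 : ∀ j, ∃ r s : K[X], aeval y s ≠ 0 ∧ (c j : F) * aeval y s = aeval y r := by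
      intro j
      obtain ⟨r, s, hrs⟩ := (IntermediateField.mem_adjoin_simple_iff K (c j : F)).mp (c j).2
      by_cases hs : aeval y s = 0
      · refine ⟨0, 1, by simp, ?_⟩
        rw [hs, div_zero] at hrs
        simp [hrs]
      · exact ⟨r, s, hs, by rw [hrs, div_mul_cancel₀ _ hs]⟩
    choose r s hs hrs using h1
    have h2 := h (fun j => r j * ∏ l ∈ Finset.univ.erase j, s l) (by
      have h3 : ∑ j, aeval y (r j * ∏ l ∈ Finset.univ.erase j, s l) * b j =
          (∏ l, aeval y (s l)) * ∑ j, c j • b j := by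
        rw [Finset.mul_sum]
        refine Finset.sum_congr rfl fun j _ => ?_
        rw [Algebra.smul_def, map_mul, map_prod, ← hrs j,
          ← Finset.mul_prod_erase Finset.univ (fun l => aeval y (s l)) (Finset.mem_univ j)]
        simp only [IntermediateField.algebraMap_apply]
        ring
      rw [h3, hc, mul_zero]) i
    rw [map_mul, map_prod, mul_eq_zero, Finset.prod_eq_zero_iff] at h2
    rcases h2 with h2 | ⟨l, _, hl⟩
    · rw [← hrs i, mul_eq_zero] at h2
      exact Subtype.ext (h2.resolve_right (hs i))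
    · exact absurd hl (hs l)

end Poly

namespace GaussData

variable {K F k F' : Type*} [Field K] [Field F] [Algebra K F] [Field k] [Field F']
    [Algebra k F'] (G : GaussData K F k F')

/-- The structure map `A → O`. -/
def φ : G.A →+* G.O where
  toFun a := ⟨algebraMap K F a, (G.mem_O_iff _).mpr a.2⟩
  map_one' := by ext; simp
  map_mul' a b := by ext; simp
  map_zero' := by ext; simp
  map_add' a b := by ext; simp

theorem coe_φ (a : G.A) : ((G.φ a : G.O) : F) = algebraMap K F a := rfl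

theorem coe_eval₂_φ (y : G.O) (q : G.A[X]) :
    ((q.eval₂ G.φ y : G.O) : F) = aeval (y : F) (q.map G.A.subtype) := by
  have h1 : ((q.eval₂ G.φ y : G.O) : F) = G.O.subtype (q.eval₂ G.φ y) := rfl
  rw [h1, Polynomial.hom_eval₂, Polynomial.aeval_def, Polynomial.eval₂_map]
  rfl

theorem ρ_eval₂_φ (y : G.O) (q : G.A[X]) :
    G.ρ (q.eval₂ G.φ y) = aeval (G.ρ y) (q.map G.res) := by
  rw [Polynomial.hom_eval₂, Polynomial.aeval_def, Polynomial.eval₂_map]
  congr 1
  ext a
  exact G.ρ_algebraMap a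

/-- Primitive scaling of a finite family of polynomials. -/
theorem exists_primitive {ι : Type*} [Fintype ι] (p : ι → K[X]) (hp : ∃ i, p i ≠ 0) :
    ∃ (c : K) (_ : c ≠ 0) (q : ι → G.A[X]), (∀ i, (q i).map G.A.subtype = C c * p i) ∧
      ∃ i, (q i).map G.res ≠ 0 := by
  classical
  -- all coefficients
  let S : Finset (ι × ℕ) := Finset.univ.biUnion fun i => (p i).support.image fun n => (i, n)
  have hS : S.Nonempty := by
    obtain ⟨i, hi⟩ := hp
    obtain ⟨n, hn⟩ := Polynomial.support_nonempty.mpr hi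
    exact ⟨(i, n), Finset.mem_biUnion.mpr ⟨i, Finset.mem_univ i,
      Finset.mem_image.mpr ⟨n, hn, rfl⟩⟩⟩
  obtain ⟨⟨i₀, n₀⟩, hin, hmax⟩ := Finset.exists_max_image S
    (fun z => G.A.valuation ((p z.1).coeff z.2)) hS
  have hne : (p i₀).coeff n₀ ≠ 0 := by
    obtain ⟨i, _, hi⟩ := Finset.mem_biUnion.mp hin
    obtain ⟨n, hn, h⟩ := Finset.mem_image.mp hi
    obtain ⟨rfl, rfl⟩ := Prod.mk.injEq _ _ _ _ ▸ h
    exact Polynomial.mem_support_iff.mp hn
  set c := ((p i₀).coeff n₀)⁻¹ with hc
  have hc0 : c ≠ 0 := inv_ne_zero hne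
  have hmem : ∀ i n, c * (p i).coeff n ∈ G.A := by
    intro i n
    by_cases h0 : (p i).coeff n = 0
    · rw [h0, mul_zero]; exact G.A.zero_mem
    · have h1 := hmax (i, n) (Finset.mem_biUnion.mpr ⟨i, Finset.mem_univ i,
        Finset.mem_image.mpr ⟨n, Polynomial.mem_support_iff.mpr h0, rfl⟩⟩)
      rw [← ValuationSubring.valuation_le_one_iff, map_mul, hc, map_inv₀]
      have h2 : G.A.valuation ((p i₀).coeff n₀) ≠ 0 := (Valuation.ne_zero_iff _).mpr hne
      calc _ ≤ (G.A.valuation ((p i₀).coeff n₀))⁻¹ * G.A.valuation ((p i₀).coeff n₀) :=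
            mul_le_mul_right h1 _
        _ = 1 := inv_mul_cancel₀ h2
  have hlift : ∀ i, ∃ q : G.A[X], q.map G.A.subtype = C c * p i := by
    intro i
    have : C c * p i ∈ Polynomial.lifts G.A.subtype := by
      rw [Polynomial.lifts_iff_coeff_lifts]
      intro n
      rw [Polynomial.coeff_C_mul]
      exact ⟨⟨_, hmem i n⟩, rfl⟩
    obtain ⟨q, hq⟩ := (Polynomial.mem_lifts _).mp this
    exact ⟨q, hq⟩
  choose q hq using hlift
  refine ⟨c, hc0, q, hq, i₀, ?_⟩
  intro h0
  have h1 : ((q i₀).coeff n₀ : K) = 1 := by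
    have := congrArg (fun r : K[X] => r.coeff n₀) (hq i₀)
    simp only [Polynomial.coeff_map, Polynomial.coeff_C_mul] at this
    rw [hc, inv_mul_cancel₀ hne] at this
    exact this
  have h2 : (q i₀).coeff n₀ = 1 := Subtype.ext h1
  have h3 := congrArg (fun r : k[X] => r.coeff n₀) h0
  simp only [Polynomial.coeff_map, Polynomial.coeff_zero, h2, map_one] at h3
  exact one_ne_zero h3

/-- Reduction of a linear relation with polynomial coefficients. -/
theorem exists_relation {ι : Type*} [Fintype ι] (p : ι → K[X]) (hp : ∃ i, p i ≠ 0)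
    (y : G.O) (b : ι → G.O) (h : ∑ i, aeval (y : F) (p i) * (b i : F) = 0) :
    ∃ q : ι → k[X], (∃ i, q i ≠ 0) ∧ ∑ i, aeval (G.ρ y) (q i) * G.ρ (b i) = 0 := by
  obtain ⟨c, hc, q, hq, hne⟩ := G.exists_primitive p hp
  refine ⟨fun i => (q i).map G.res, hne, ?_⟩
  have h1 : ∑ i, (q i).eval₂ G.φ y * b i = 0 := by
    apply Subtype.ext
    have h2 : ((∑ i, (q i).eval₂ G.φ y * b i : G.O) : F) =
        algebraMap K F c * ∑ i, aeval (y : F) (p i) * (b i : F) := by
      push_cast
      rw [Finset.mul_sum]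
      refine Finset.sum_congr rfl fun i _ => ?_
      rw [G.coe_eval₂_φ, hq i, map_mul, aeval_C, mul_assoc]
    rw [h2, h, mul_zero]
    rfl
  have h3 := congrArg G.ρ h1
  rw [map_sum, map_zero] at h3
  rw [← h3]
  refine Finset.sum_congr rfl fun i _ => ?_
  rw [map_mul, G.ρ_eval₂_φ]

theorem transcendental_of_ρ (y : G.O) (hy : Transcendental k (G.ρ y)) :
    Transcendental K (y : F) := by
  rintro ⟨p, hp0, hp⟩
  obtain ⟨q, ⟨i, hi⟩, hq⟩ := G.exists_relation (fun _ : Unit => p) ⟨(), hp0⟩ y (fun _ => 1)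
    (by simp [hp])
  apply hy
  refine ⟨q (), by simpa using hi, ?_⟩
  simpa using hq

theorem finrank_adjoin_le (y : G.O) (hy : Transcendental k (G.ρ y))
    [FiniteDimensional K⟮(y : F)⟯ F] [FiniteDimensional k⟮G.ρ y⟯ F'] :
    finrank k⟮G.ρ y⟯ F' ≤ finrank K⟮(y : F)⟯ F := by
  classical
  let b := Module.finBasis k⟮G.ρ y⟯ F'
  choose c hc using fun i => G.ρ_surj (b i)
  have h : LinearIndependent K⟮(y : F)⟯ (fun i => (c i : F)) := by
    rw [linearIndependent_adjoin_iff]
    intro p hp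
    by_contra hcon
    push Not at hcon
    obtain ⟨i, hi⟩ := hcon
    obtain ⟨q, ⟨j, hj⟩, hq⟩ := G.exists_relation p ⟨i, fun h0 => hi (by rw [h0, map_zero])⟩ y c hp
    have h1 := (linearIndependent_adjoin_iff b).mp b.linearIndependent q (by
      simpa only [hc] using hq) j
    exact hy ⟨q j, hj, h1⟩
  have := h.fintype_card_le_finrank
  rwa [Fintype.card_fin] at this

end GaussData

end Fermat.Agent.Deuring
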