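import Fermat.Agent.Deuring.Sup

/-!
# Abstract reduction data (Gauss valuation on a function field)
-/

set_option autoImplicit false

open AlgebraicCurve WithZero Module
open scoped IntermediateField
open Fermat.Agent.RR

namespace Fermat.Agent.Deuring

/-- Reduction data: a valuation ring `A` of `K` with residue field `k`, a valuation ring `O` of
`F` above it with residue field `F'`, such that every finite dimensional `K`-subspace of `F` has
an orthonormal basis. -/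
structure GaussData (K F k F' : Type*) [Field K] [Field F] [Algebra K F] [Field k] [Field F']
    [Algebra k F'] where
  A : ValuationSubring K
  res : A →+* k
  res_surj : Function.Surjective res
  res_eq_zero_iff : ∀ a : A, res a = 0 ↔ (a : K) ∈ A.nonunits
  O : ValuationSubring F
  ρ : O →+* F'
  ρ_surj : Function.Surjective ρ
  ρ_eq_zero_iff : ∀ x : O, ρ x = 0 ↔ (x : F) ∈ O.nonunits
  mem_O_iff : ∀ a : K, algebraMap K F a ∈ O ↔ a ∈ A
  ρ_algebraMap : ∀ a : A, ρ ⟨algebraMap K F a, (mem_O_iff _).mpr a.2⟩ = algebraMap k F' (res a)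
  ortho : ∀ (V : Submodule K F) [FiniteDimensional K V],
    ∃ (b : Basis (Fin (finrank K V)) K V) (hb : ∀ i, ((b i : V) : F) ∈ O),
      LinearIndependent k (fun i => ρ ⟨((b i : V) : F), hb i⟩)

namespace GaussData

variable {K F k F' : Type*} [Field K] [Field F] [Algebra K F] [Field k] [Field F']
    [Algebra k F'] (G : GaussData K F k F')

/-- The reduction of a `K`-subspace of `F`. -/
def redSpace (V : Submodule K F) : Submodule k F' where
  carrier := {w | ∃ (f : F) (_ : f ∈ V) (h : f ∈ G.O), G.ρ ⟨f, h⟩ = w}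
  zero_mem' := ⟨0, V.zero_mem, G.O.zero_mem, map_zero G.ρ⟩
  add_mem' := by
    rintro _ _ ⟨f, hf, hfO, rfl⟩ ⟨g, hg, hgO, rfl⟩
    exact ⟨f + g, V.add_mem hf hg, G.O.add_mem _ _ hfO hgO, by rw [← map_add]; rfl⟩
  smul_mem' := by
    rintro c _ ⟨f, hf, hfO, rfl⟩
    obtain ⟨a, rfl⟩ := G.res_surj c
    refine ⟨(a : K) • f, V.smul_mem _ hf, ?_, ?_⟩
    · rw [Algebra.smul_def]
      exact G.O.mul_mem _ _ ((G.mem_O_iff _).mpr a.2) hfO
    · rw [Algebra.smul_def (G.res a), ← G.ρ_algebraMap, ← map_mul]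
      congr 1
      ext
      simp [Algebra.smul_def]

theorem mem_redSpace {V : Submodule K F} {w : F'} :
    w ∈ G.redSpace V ↔ ∃ (f : F) (_ : f ∈ V) (h : f ∈ G.O), G.ρ ⟨f, h⟩ = w := Iff.rfl

theorem redSpace_mono {V W : Submodule K F} (h : V ≤ W) : G.redSpace V ≤ G.redSpace W := by
  rintro _ ⟨f, hf, hfO, rfl⟩
  exact ⟨f, h hf, hfO, rfl⟩

/-- Reduction of a constant multiple by a constant in `A`. -/
theorem ρ_smul {a : K} (ha : a ∈ G.A) {f : F} (hf : f ∈ G.O) (h : a • f ∈ G.O) :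
    G.ρ ⟨a • f, h⟩ = G.res ⟨a, ha⟩ • G.ρ ⟨f, hf⟩ := by
  rw [Algebra.smul_def (G.res ⟨a, ha⟩), ← G.ρ_algebraMap ⟨a, ha⟩, ← map_mul]
  congr 1
  ext
  simp [Algebra.smul_def]

theorem smul_mem {a : K} (ha : a ∈ G.A) {f : F} (hf : f ∈ G.O) : a • f ∈ G.O := by
  rw [Algebra.smul_def]
  exact G.O.mul_mem _ _ ((G.mem_O_iff _).mpr ha) hf

theorem ρ_add {f g : F} (hf : f ∈ G.O) (hg : g ∈ G.O) (h : f + g ∈ G.O) :
    G.ρ ⟨f + g, h⟩ = G.ρ ⟨f, hf⟩ + G.ρ ⟨g, hg⟩ := by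
  rw [← map_add]; rfl

theorem ρ_mul {f g : F} (hf : f ∈ G.O) (hg : g ∈ G.O) (h : f * g ∈ G.O) :
    G.ρ ⟨f * g, h⟩ = G.ρ ⟨f, hf⟩ * G.ρ ⟨g, hg⟩ := by
  rw [← map_mul]; rfl

theorem ρ_sum {ι : Type*} (s : Finset ι) (f : ι → F) (hf : ∀ i, f i ∈ G.O)
    (h : ∑ i ∈ s, f i ∈ G.O) :
    G.ρ ⟨∑ i ∈ s, f i, h⟩ = ∑ i ∈ s, G.ρ ⟨f i, hf i⟩ := by
  rw [← map_sum]
  congr 1
  ext
  simp

/-- The coordinates of an integral element in an orthonormal basis are integral. -/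
theorem coord_mem {ι : Type*} [Fintype ι] {b : ι → F} (hb : ∀ i, b i ∈ G.O)
    (hli : LinearIndependent k (fun i => G.ρ ⟨b i, hb i⟩)) {c : ι → K}
    (hc : ∑ i, c i • b i ∈ G.O) (i : ι) : c i ∈ G.A := by
  classical
  by_contra hi
  obtain ⟨j, _, hj⟩ := Finset.exists_max_image Finset.univ (fun j => G.A.valuation (c j))
    ⟨i, Finset.mem_univ i⟩
  have hjA : c j ∉ G.A := by
    intro h
    apply hi
    rw [← ValuationSubring.valuation_le_one_iff] at h ⊢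
    exact (hj i (Finset.mem_univ i)).trans h
  have hj0 : c j ≠ 0 := fun h => hjA (h ▸ G.A.zero_mem)
  have hquot : ∀ l, (c j)⁻¹ * c l ∈ G.A := by
    intro l
    rw [← ValuationSubring.valuation_le_one_iff, map_mul, map_inv₀]
    have h1 := hj l (Finset.mem_univ l)
    have h2 : G.A.valuation (c j) ≠ 0 := (Valuation.ne_zero_iff _).mpr hj0
    calc (G.A.valuation (c j))⁻¹ * G.A.valuation (c l)
        ≤ (G.A.valuation (c j))⁻¹ * G.A.valuation (c j) := mul_le_mul_right h1 _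
      _ = 1 := inv_mul_cancel₀ h2
  have hinvA : (c j)⁻¹ ∈ G.A := (G.A.mem_or_inv_mem (c j)).resolve_left hjA
  have hnon : (c j)⁻¹ ∈ G.A.nonunits := by
    rw [ValuationSubring.mem_nonunits_iff]
    rw [map_inv₀]
    have h2 : 1 < G.A.valuation (c j) := by
      rw [← not_le, ValuationSubring.valuation_le_one_iff]
      exact hjA
    exact inv_lt_one_of_one_lt₀ h2
  have h0 : G.res ⟨(c j)⁻¹, hinvA⟩ = 0 := (G.res_eq_zero_iff _).mpr hnon
  have hbmem : ∀ l, ((c j)⁻¹ * c l) • b l ∈ G.O := fun l => G.smul_mem (hquot l) (hb l)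
  have hsum : (c j)⁻¹ • (∑ l, c l • b l) = ∑ l, ((c j)⁻¹ * c l) • b l := by
    rw [Finset.smul_sum]
    exact Finset.sum_congr rfl fun l _ => by rw [mul_smul]
  have h1 : G.ρ ⟨(c j)⁻¹ • (∑ l, c l • b l), G.smul_mem hinvA hc⟩ = 0 := by
    rw [G.ρ_smul hinvA hc, h0, zero_smul]
  have h2 : ∑ l, G.res ⟨(c j)⁻¹ * c l, hquot l⟩ • G.ρ ⟨b l, hb l⟩ = 0 := by
    rw [← h1]
    have h3 : (⟨(c j)⁻¹ • (∑ l, c l • b l), G.smul_mem hinvA hc⟩ : G.O) =
        ⟨∑ l, ((c j)⁻¹ * c l) • b l, hsum ▸ G.smul_mem hinvA hc⟩ := Subtype.ext hsum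
    rw [h3, G.ρ_sum Finset.univ _ hbmem]
    exact Finset.sum_congr rfl fun l _ => (G.ρ_smul (hquot l) (hb l) (hbmem l)).symm
  have h3 := Fintype.linearIndependent_iff.mp hli _ h2 j
  have h4 : (⟨(c j)⁻¹ * c j, hquot j⟩ : G.A) = 1 := Subtype.ext (inv_mul_cancel₀ hj0)
  rw [h4, map_one] at h3
  exact one_ne_zero h3

/-- Scaling into the unit sphere. -/
theorem exists_scale {f : F} (hf : f ≠ 0) :
    ∃ (c : K) (_ : c ≠ 0) (h : c • f ∈ G.O), G.ρ ⟨c • f, h⟩ ≠ 0 := by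
  obtain ⟨b, hb, hli⟩ := G.ortho (K ∙ f)
  have h1 : finrank K (K ∙ f) = 1 := finrank_span_singleton hf
  let i : Fin (finrank K (K ∙ f)) := ⟨0, by omega⟩
  obtain ⟨c, hc⟩ := Submodule.mem_span_singleton.mp (b i).2
  have hne := hli.ne_zero i
  refine ⟨c, ?_, hc ▸ hb i, ?_⟩
  · rintro rfl
    rw [zero_smul] at hc
    apply hne
    have h2 : (⟨((b i : (K ∙ f : Submodule K F)) : F), hb i⟩ : G.O) = 0 := Subtype.ext hc.symm
    change G.ρ ⟨((b i : (K ∙ f : Submodule K F)) : F), hb i⟩ = 0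
    rw [h2, map_zero]
  · intro h0
    apply hne
    change G.ρ ⟨((b i : (K ∙ f : Submodule K F)) : F), hb i⟩ = 0
    rw [← h0]
    congr 1
    exact Subtype.ext hc.symm

theorem redSpace_eq_span {V : Submodule K F} {ι : Type*} [Fintype ι] (b : Basis ι K V)
    (hb : ∀ i, ((b i : V) : F) ∈ G.O)
    (hli : LinearIndependent k (fun i => G.ρ ⟨((b i : V) : F), hb i⟩)) :
    G.redSpace V = Submodule.span k (Set.range fun i => G.ρ ⟨((b i : V) : F), hb i⟩) := by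
  apply le_antisymm
  · rintro _ ⟨f, hf, hfO, rfl⟩
    have h1 : f = ∑ i, b.repr ⟨f, hf⟩ i • ((b i : V) : F) := by
      conv_lhs => rw [show f = ((⟨f, hf⟩ : V) : F) from rfl, ← b.sum_repr ⟨f, hf⟩]
      rw [Submodule.coe_sum]
      rfl
    have hc : ∀ i, b.repr ⟨f, hf⟩ i ∈ G.A := fun i => G.coord_mem hb hli (h1 ▸ hfO) i
    have h2 : (⟨f, hfO⟩ : G.O) = ⟨∑ i, b.repr ⟨f, hf⟩ i • ((b i : V) : F), h1 ▸ hfO⟩ :=
      Subtype.ext h1
    rw [h2, G.ρ_sum Finset.univ _ (fun i => G.smul_mem (hc i) (hb i))]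
    refine Submodule.sum_mem _ fun i _ => ?_
    rw [G.ρ_smul (hc i) (hb i)]
    exact Submodule.smul_mem _ _ (Submodule.subset_span ⟨i, rfl⟩)
  · rw [Submodule.span_le]
    rintro _ ⟨i, rfl⟩
    exact ⟨_, (b i).2, hb i, rfl⟩

theorem finrank_redSpace (V : Submodule K F) [FiniteDimensional K V] :
    finrank k (G.redSpace V) = finrank K V := by
  obtain ⟨b, hb, hli⟩ := G.ortho V
  rw [G.redSpace_eq_span b hb hli, finrank_span_eq_card hli, Fintype.card_fin]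

instance finiteDimensional_redSpace (V : Submodule K F) [FiniteDimensional K V] :
    FiniteDimensional k (G.redSpace V) := by
  obtain ⟨b, hb, hli⟩ := G.ortho V
  rw [G.redSpace_eq_span b hb hli]
  exact FiniteDimensional.span_of_finite k (Set.finite_range _)

theorem redSpace_ne_bot {V : Submodule K F} (hV : V ≠ ⊥) : G.redSpace V ≠ ⊥ := by
  obtain ⟨f, hf, hf0⟩ := (Submodule.ne_bot_iff V).mp hV
  obtain ⟨c, hc, h, hne⟩ := G.exists_scale hf0
  rw [Submodule.ne_bot_iff]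
  exact ⟨_, ⟨c • f, V.smul_mem _ hf, h, rfl⟩, hne⟩

theorem mul_mem_redSpace {V W U : Submodule K F} (hmul : ∀ v ∈ V, ∀ w ∈ W, v * w ∈ U)
    {x y : F'} (hx : x ∈ G.redSpace V) (hy : y ∈ G.redSpace W) : x * y ∈ G.redSpace U := by
  obtain ⟨f, hf, hfO, rfl⟩ := hx
  obtain ⟨g, hg, hgO, rfl⟩ := hy
  exact ⟨f * g, hmul f hf g hg, G.O.mul_mem _ _ hfO hgO, G.ρ_mul hfO hgO _⟩

end GaussData

/-- The divisor reduction homomorphism attached to reduction data (existence = good reduction). -/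
structure RedMap {K F k F' : Type*} [Field K] [Field F] [Algebra K F] [Field k] [Field F']
    [Algebra k F'] (G : GaussData K F k F') [HasPrincipalDivisors K F]
    [HasPrincipalDivisors k F'] where
  r : Divisor K F →+ Divisor k F'
  degree_r : ∀ D, Divisor.degree (r D) = Divisor.degree D
  nonneg : ∀ D, 0 ≤ D → 0 ≤ r D
  r_div : ∀ (f : F) (hf : f ∈ G.O), G.ρ ⟨f, hf⟩ ≠ 0 → r (div f) = div (G.ρ ⟨f, hf⟩)
  redSpace_le : ∀ D, G.redSpace (riemannRochSpace D) ≤ riemannRochSpace (r D)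
  n₀ : ℤ
  redSpace_L : ∀ D, n₀ ≤ Divisor.degree D →
    G.redSpace (riemannRochSpace D) = riemannRochSpace (r D)

end Fermat.Agent.Deuring
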