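import Fermat.Agent.Deuring.Bounded
import Fermat.Prelude.Def_AlgebraicCurve_Correspondence

/-!
# Lemmas on divisors of functions: Galois action, pullback, constants
-/

set_option autoImplicit false

open AlgebraicCurve WithZero Module Polynomial
open scoped IntermediateField
open Fermat.Agent.RR Fermat.Agent.FF

namespace Fermat.Agent.Deuring

section Basic

variable {K F : Type*} [Field K] [Field F] [Algebra K F] [HasPrincipalDivisors K F]

theorem div_one' : (div (1 : F) : Divisor K F) = 0 := by
  ext v
  rw [div_apply, v.ord_one]; rfl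

theorem div_pow {f : F} (n : ℕ) : (div (f ^ n) : Divisor K F) = n • div f := by
  ext v
  rw [div_apply, Finsupp.smul_apply, div_apply, ord_pow, nsmul_eq_mul]

theorem div_smul {c : K} (hc : c ≠ 0) (f : F) : (div (c • f) : Divisor K F) = div f := by
  rcases eq_or_ne f 0 with rfl | hf
  · rw [smul_zero]
  ext v
  have hc' : algebraMap K F c ≠ 0 := by simpa using hc
  rw [div_apply, div_apply, Algebra.smul_def, v.ord_mul hc' hf, ord_algebraMap, zero_add]

theorem isPrincipal_iff {D : Divisor K F} : D.IsPrincipal ↔ ∃ f : F, f ≠ 0 ∧ D = div f := by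
  constructor
  · rintro ⟨f, hf, hD⟩
    exact ⟨f, hf, Finsupp.ext fun v => by rw [hD, div_apply]⟩
  · rintro ⟨f, hf, rfl⟩
    exact ⟨f, hf, fun v => div_apply f v⟩

theorem isPrincipal_div {f : F} (hf : f ≠ 0) : (div f : Divisor K F).IsPrincipal :=
  isPrincipal_iff.mpr ⟨f, hf, rfl⟩

theorem div_smul_aut (g : SemilinearAut K F) (f : F) :
    (div (g • f) : Divisor K F) = g • div f := by
  ext w
  rw [SemilinearAut.divisor_smul_apply, div_apply, div_apply]
  have h := SemilinearAut.ord_smul g (g⁻¹ • w) f
  rw [smul_inv_smul] at h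
  exact h

omit [HasPrincipalDivisors K F] in
theorem aut_smul_nonneg (g : SemilinearAut K F) {D : Divisor K F} (hD : 0 ≤ D) : 0 ≤ g • D := by
  intro w
  rw [SemilinearAut.divisor_smul_apply]
  exact hD _

omit [HasPrincipalDivisors K F] in
theorem single_nonneg (v : Place K F) : (0 : Divisor K F) ≤ Finsupp.single v 1 := by
  classical
  intro w
  rw [Finsupp.single_apply]
  split_ifs <;> simp

end Basic

section Const

variable {K F : Type*} [Field K] [Field F] [Algebra K F] [IsFF K F] [IsAlgClosed K]

/-- Functions with the same divisor differ by a constant. -/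
theorem exists_const_of_div_eq {a b : F} (ha : a ≠ 0) (hb : b ≠ 0)
    (h : (div a : Divisor K F) = div b) : ∃ c : K, c ≠ 0 ∧ a = c • b := by
  have h1 : ∀ v : Place K F, 0 ≤ v.ord (a * b⁻¹) := by
    intro v
    have h2 : v.ord a = v.ord b := by
      rw [← div_apply (K := K) a v, ← div_apply (K := K) b v, h]
    rw [v.ord_mul ha (inv_ne_zero hb), v.ord_inv]
    omega
  have h2 : IsAlgebraic K (a * b⁻¹) := isAlgebraic_of_forall_ord_nonneg h1
  obtain ⟨c, hc⟩ := mem_range_of_isAlgebraic h2
  refine ⟨c, ?_, ?_⟩
  · rintro rfl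
    rw [map_zero] at hc
    exact mul_ne_zero ha (inv_ne_zero hb) hc.symm
  · rw [Algebra.smul_def, hc, mul_assoc, inv_mul_cancel₀ hb, mul_one]

end Const

section Pullback

variable {K F F' : Type*} [Field K] [Field F] [Field F'] [Algebra K F] [Algebra K F']
  [HasPrincipalDivisors K F] [HasPrincipalDivisors K F']
  (φ : F →ₐ[K] F') (hφ : φ.toRingHom.IsIntegral)

theorem pullbackAlong_div (f : F) :
    Divisor.pullbackAlong φ hφ (div f) = (div (φ f) : Divisor K F') := by
  let := algebraAlong φ
  have := isScalarTower_along φ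
  have := isIntegral_along φ hφ
  ext w
  rw [div_apply]
  exact Divisor.pullback_apply_eq_ord (fun v => div_apply f v) w

omit [HasPrincipalDivisors K F] in
theorem pullbackAlong_nonneg {D : Divisor K F} (hD : 0 ≤ D) :
    0 ≤ Divisor.pullbackAlong φ hφ D := by
  intro w
  rw [Divisor.pullbackAlong_apply]
  exact mul_nonneg (Int.natCast_nonneg _) (hD _)

end Pullback

end Fermat.Agent.Deuring
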