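import Fermat.Agent.Deuring.Red

/-!
# The genus does not increase under reduction
-/

set_option autoImplicit false

open AlgebraicCurve WithZero Module
open scoped IntermediateField
open Fermat.Agent.RR Fermat.Agent.FF

namespace Fermat.Agent.Deuring

namespace GaussData

variable {K F k F' : Type*} [Field K] [Field F] [Algebra K F] [Field k] [Field F']
    [Algebra k F'] (G : GaussData K F k F')
    [IsFF K F] [IsFF k F'] [IsAlgClosed K] [IsAlgClosed k]

attribute [local instance] nonempty_place finiteResidue

include G in
/-- The genus does not increase under reduction. -/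
theorem genus_le : genusFF k F' ≤ genusFF K F := by
  obtain ⟨P⟩ := nonempty_place (K := K) (F := F)
  set d : ℤ := 2 * (genusFF K F : ℤ) + 2 * genusFF k F' + 2 with hd
  set D : Divisor K F := Finsupp.single P d with hD
  have hdeg : Divisor.degree D = d := degree_single_one P d
  have hell := ell_large (D := D) (by omega)
  have hbot : riemannRochSpace D ≠ ⊥ := by
    intro h
    have : ell D = 0 := by
      rw [ell, h]
      exact finrank_bot K F
    omega
  obtain ⟨E, hE⟩ := IsSup.exists (G.redSpace (riemannRochSpace D)) (G.redSpace_ne_bot hbot)
  have h1 : ell D ≤ ell E := by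
    rw [ell, ell, ← G.finrank_redSpace]
    exact Submodule.finrank_mono hE.1
  have h2 := G.degree_sup_le hbot hE
  rcases le_or_gt (Divisor.degree E) (2 * (genusFF k F' : ℤ) - 2) with h3 | h3
  · have h4 := ell_le_genus h3
    omega
  · have h4 := ell_large h3
    omega

/-- **Deuring reduction** from the inequality of genera. -/
theorem exists_redMap_of_le (hg : genusFF K F ≤ genusFF k F') :
    ∃ R : RedMap G, R.n₀ = 2 * (genusFF K F : ℤ) :=
  G.exists_redMap (le_antisymm hg G.genus_le)

end GaussData

end Fermat.Agent.Deuring
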