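import Fermat.Agent.Deuring.Assembly
import Mathlib.Algebra.Polynomial.Identities

/-!
# Kummer descent of the injectivity of the reduction map
-/

set_option autoImplicit false

open AlgebraicCurve WithZero Module Polynomial
open scoped IntermediateField
open Fermat.Agent.RR Fermat.Agent.FF

namespace Fermat.Agent.Deuring

namespace GaussData

variable {K F k F' : Type*} [Field K] [Field F] [Algebra K F] [Field k] [Field F']
    [Algebra k F'] (G : GaussData K F k F')

/-- Simultaneous scaling of finitely many functions. -/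
theorem exists_scale_family {ι : Type*} [Finite ι] (f : ι → F) (hf : ∃ i, f i ≠ 0) :
    ∃ (c : K) (_ : c ≠ 0) (h : ∀ i, c • f i ∈ G.O), ∃ i, G.ρ ⟨c • f i, h i⟩ ≠ 0 := by
  classical
  have := Fintype.ofFinite ι
  have h1 : ∀ i, f i ≠ 0 → ∃ c : K, c ≠ 0 ∧ ∃ h : c • f i ∈ G.O, G.ρ ⟨c • f i, h⟩ ≠ 0 := by
    intro i hi
    obtain ⟨c, hc, h, h0⟩ := G.exists_scale hi
    exact ⟨c, hc, h, h0⟩
  choose c hc hcO hc0 using h1
  -- choose the index with `|c i|` minimal
  obtain ⟨j, hj, hmin⟩ := Finset.exists_min_image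
    (Finset.univ.filter fun i => f i ≠ 0)
    (fun i => if h : f i ≠ 0 then G.A.valuation (c i h) else 0)
    (by
      obtain ⟨i, hi⟩ := hf
      exact ⟨i, Finset.mem_filter.mpr ⟨Finset.mem_univ _, hi⟩⟩)
  have hj' := (Finset.mem_filter.mp hj).2
  have hall : ∀ i, c j hj' • f i ∈ G.O := by
    intro i
    by_cases hi : f i = 0
    · rw [hi, smul_zero]; exact G.O.zero_mem
    · have h2 := hmin i (Finset.mem_filter.mpr ⟨Finset.mem_univ _, hi⟩)
      simp only [ne_eq, hj', not_false_eq_true, dif_pos, hi] at h2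
      have h3 : c j hj' * (c i hi)⁻¹ ∈ G.A := by
        rw [← ValuationSubring.valuation_le_one_iff, map_mul, map_inv₀]
        have h4 : G.A.valuation (c i hi) ≠ 0 := (Valuation.ne_zero_iff _).mpr (hc i hi)
        calc G.A.valuation (c j hj') * (G.A.valuation (c i hi))⁻¹
            ≤ G.A.valuation (c i hi) * (G.A.valuation (c i hi))⁻¹ := mul_le_mul_left h2 _
          _ = 1 := mul_inv_cancel₀ h4
      have h5 : c j hj' • f i = (c j hj' * (c i hi)⁻¹) • (c i hi • f i) := by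
        rw [smul_smul, mul_assoc, inv_mul_cancel₀ (hc i hi), mul_one]
      rw [h5]
      exact G.smul_mem h3 (hcO i hi)
  exact ⟨c j hj', hc j hj', hall, j, hc0 j hj'⟩

/-- reduction of a power -/
theorem ρ_pow {f : F} (hf : f ∈ G.O) (n : ℕ) (h : f ^ n ∈ G.O) :
    G.ρ ⟨f ^ n, h⟩ = G.ρ ⟨f, hf⟩ ^ n := by
  rw [← map_pow]; rfl

end GaussData

namespace Setup

variable {K F₁ F k F' : Type*} [Field K] [Field F₁] [Field F] [Field k] [Field F']
    [Algebra K F₁] [Algebra K F] [Algebra k F'] [HasPrincipalDivisors K F₁]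
    [HasPrincipalDivisors K F] [HasPrincipalDivisors k F'] (S : Setup K F₁ F k F')

theorem scaled_mem_B {x : F₁} {c : K} (h : c • S.φ x ∈ S.G.O) :
    S.G.ρ ⟨c • S.φ x, h⟩ ∈ S.B := by
  have h1 : c • S.φ x = S.φ (c • x) := (map_smul S.φ c x).symm
  have h2 : S.φ (c • x) ∈ S.G.O := h1 ▸ h
  have h3 : (⟨c • S.φ x, h⟩ : S.G.O) = ⟨S.φ (c • x), h2⟩ := Subtype.ext h1
  rw [h3]
  exact S.hB _ _

theorem comb_mem {ι : Type*} [Fintype ι] (U : ι → S.G.O) (f : ι → F₁) (c : K)
    (hc : ∀ i, c • S.φ (f i) ∈ S.G.O) : c • (∑ i, S.φ (f i) * (U i : F)) ∈ S.G.O := by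
  rw [Finset.smul_sum]
  refine sum_mem fun i _ => ?_
  rw [← smul_mul_assoc]
  exact S.G.O.mul_mem _ _ (hc i) (U i).2

theorem ρ_comb {ι : Type*} [Fintype ι] (U : ι → S.G.O) (f : ι → F₁) (c : K)
    (hc : ∀ i, c • S.φ (f i) ∈ S.G.O) (y : F) (hy : y = ∑ i, S.φ (f i) * (U i : F))
    (h : c • y ∈ S.G.O) :
    S.G.ρ ⟨c • y, h⟩ = ∑ i, (⟨S.G.ρ ⟨c • S.φ (f i), hc i⟩, S.scaled_mem_B (hc i)⟩ : S.B) •
      S.G.ρ (U i) := by
  subst hy
  have h1 : (⟨c • (∑ i, S.φ (f i) * (U i : F)), h⟩ : S.G.O) =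
      ∑ i, ⟨c • S.φ (f i), hc i⟩ * U i := by
    apply Subtype.ext
    rw [AddSubmonoidClass.coe_finsetSum]
    simp only [MulMemClass.coe_mul, Finset.smul_sum, smul_mul_assoc]
  rw [h1, map_sum]
  refine Finset.sum_congr rfl fun i _ => ?_
  rw [map_mul]
  rfl

/-- Best approximation: if `[F : F₁] = [F' : B]`, every `g ∉ F₁` can be written `a + c⁻¹ h₁` with
`a ∈ F₁` and `ρ h₁ ∉ B`. -/
theorem exists_approx (hfin : FiniteDimensional S.B F')
    (hdeg : finrankAlong K S.φ = finrank S.B F') {g : F} (hg : ∀ a, S.φ a ≠ g) :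
    ∃ (a : F₁) (c : K) (_ : c ≠ 0) (h : c • (g - S.φ a) ∈ S.G.O),
      S.G.ρ ⟨c • (g - S.φ a), h⟩ ∉ S.B := by
  classical
  let : Algebra F₁ F := algebraAlong S.φ
  have hfr : finrank F₁ F = finrank S.B F' := hdeg
  have hfinF : FiniteDimensional F₁ F := by
    apply FiniteDimensional.of_finrank_pos
    rw [hfr]
    exact finrank_pos
  have halg : ∀ a : F₁, algebraMap F₁ F a = S.φ a := fun _ => rfl
  -- a `B`-basis of `F'` containing `1`
  have hone : LinearIndepOn S.B id ({1} : Set F') :=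
    LinearIndepOn.singleton one_ne_zero
  let b := Basis.extend hone
  let i₀ : hone.extend (Set.subset_univ _) :=
    ⟨1, Basis.subset_extend hone (Set.mem_singleton _)⟩
  have hb₀ : b i₀ = 1 := Basis.extend_apply_self hone i₀
  have : Finite (hone.extend (Set.subset_univ _)) := Module.Finite.finite_basis b
  have := Fintype.ofFinite (hone.extend (Set.subset_univ _))
  -- lift
  have hlift : ∀ i, ∃ u : S.G.O, S.G.ρ u = b i := fun i => S.G.ρ_surj (b i)
  choose u hu using hlift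
  let U : hone.extend (Set.subset_univ _) → S.G.O := fun i => if i = i₀ then 1 else u i
  have hU : ∀ i, S.G.ρ (U i) = b i := by
    intro i
    by_cases h : i = i₀
    · simp only [U, h, if_true, map_one, hb₀]
    · simp only [U, h, if_false, hu]
  have hU₀ : U i₀ = 1 := by simp [U]
  -- linear independence of the lifts
  have hli : LinearIndependent F₁ (fun i => (U i : F)) := by
    rw [Fintype.linearIndependent_iff]
    intro f hf
    by_contra hcon
    push Not at hcon
    have hne : ∃ i, S.φ (f i) ≠ 0 := by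
      obtain ⟨i, hi⟩ := hcon
      exact ⟨i, by simpa using hi⟩
    obtain ⟨c, hc, hcO, j, hj⟩ := S.G.exists_scale_family (fun i => S.φ (f i)) hne
    have h1 : (0 : F) = ∑ i, S.φ (f i) * (U i : F) := by
      rw [← hf]
      exact Finset.sum_congr rfl fun i _ => by rw [Algebra.smul_def, halg]
    have h0 : c • (0 : F) ∈ S.G.O := by rw [smul_zero]; exact S.G.O.zero_mem
    have h2 := S.ρ_comb U f c hcO 0 h1 h0
    have h3 : (⟨c • (0 : F), h0⟩ : S.G.O) = 0 := Subtype.ext (smul_zero c)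
    rw [h3, map_zero] at h2
    simp only [hU] at h2
    have h4 := Fintype.linearIndependent_iff.mp b.linearIndependent _ h2.symm j
    exact hj (congrArg Subtype.val h4)
  have hcard : Fintype.card (hone.extend (Set.subset_univ _)) = finrank F₁ F := by
    rw [hfr]; exact (finrank_eq_card_basis b).symm
  have : Nonempty (hone.extend (Set.subset_univ _)) := ⟨i₀⟩
  let BU := basisOfLinearIndependentOfCardEqFinrank hli hcard
  have hBU : ∀ i, BU i = (U i : F) := fun i => by
    simp [BU]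
  -- expand `g`
  have hgsum : g = ∑ i, S.φ (BU.repr g i) * (U i : F) := by
    conv_lhs => rw [← BU.sum_repr g]
    exact Finset.sum_congr rfl fun i _ => by rw [Algebra.smul_def, halg, hBU]
  let f : hone.extend (Set.subset_univ _) → F₁ := fun i => if i = i₀ then 0 else BU.repr g i
  have hgf : g - S.φ (BU.repr g i₀) = ∑ i, S.φ (f i) * (U i : F) := by
    rw [sub_eq_iff_eq_add]
    conv_lhs => rw [hgsum]
    rw [← Finset.add_sum_erase _ _ (Finset.mem_univ i₀),
      ← Finset.add_sum_erase (s := Finset.univ) (f := fun i => S.φ (f i) * (U i : F))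
        (a := i₀) (Finset.mem_univ i₀)]
    have h1 : ∑ i ∈ Finset.univ.erase i₀, S.φ (BU.repr g i) * (U i : F) =
        ∑ i ∈ Finset.univ.erase i₀, S.φ (f i) * (U i : F) := by
      refine Finset.sum_congr rfl fun i hi => ?_
      simp only [f, Finset.ne_of_mem_erase hi, if_false]
    rw [h1, hU₀]
    simp only [f, if_true, map_zero, OneMemClass.coe_one, mul_one, zero_add]
    ring
  have hne : ∃ i, S.φ (f i) ≠ 0 := by
    by_contra hcon
    push Not at hcon
    apply hg (BU.repr g i₀)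
    have h1 : g - S.φ (BU.repr g i₀) = 0 := by
      rw [hgf]
      exact Finset.sum_eq_zero fun i _ => by rw [hcon i, zero_mul]
    exact (sub_eq_zero.mp h1).symm
  obtain ⟨c, hc, hcO, j, hj⟩ := S.G.exists_scale_family (fun i => S.φ (f i)) hne
  have hmem : c • (g - S.φ (BU.repr g i₀)) ∈ S.G.O := by
    rw [hgf]; exact S.comb_mem U f c hcO
  refine ⟨BU.repr g i₀, c, hc, hmem, ?_⟩
  rw [S.ρ_comb U f c hcO _ hgf]
  simp only [hU]
  intro hmemB
  have hji : j ≠ i₀ := by
    rintro rfl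
    apply hj
    have h1 : (⟨c • S.φ (f i₀), hcO i₀⟩ : S.G.O) = 0 := by
      apply Subtype.ext
      simp [f]
    rw [h1, map_zero]
  -- compare coordinates
  set β : S.B := ⟨_, hmemB⟩ with hβ
  set bv : hone.extend (Set.subset_univ _) → S.B := fun i =>
    (⟨S.G.ρ ⟨c • S.φ (f i), hcO i⟩, S.scaled_mem_B (hcO i)⟩ : S.B) with hbv
  have h3 := Fintype.linearIndependent_iff.mp b.linearIndependent
    (fun i => bv i - if i = i₀ then β else 0) (by
      simp only [sub_smul, Finset.sum_sub_distrib, ite_smul, zero_smul, Finset.sum_ite_eq',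
        Finset.mem_univ, if_true, hb₀]
      rw [sub_eq_zero, Algebra.smul_def, mul_one]
      rfl) j
  simp only [hji, if_false, sub_zero] at h3
  exact hj (congrArg Subtype.val h3)

/-- An `m`-th root of a function of `F₁` which reduces into `B` belongs to `F₁`. -/
theorem mem_range_of_pow (hfin : FiniteDimensional S.B F')
    (hdeg : finrankAlong K S.φ = finrank S.B F') {m : ℕ} (hm : (m : k) ≠ 0) {g : F}
    (hg : g ∈ S.G.O) (hgB : S.G.ρ ⟨g, hg⟩ ∈ S.B) (hg0 : S.G.ρ ⟨g, hg⟩ ≠ 0) {f : F₁}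
    (hf : g ^ m = S.φ f) : ∃ a, S.φ a = g := by
  by_contra hcon
  push Not at hcon
  obtain ⟨a, c, hc, hO, hB⟩ := S.exists_approx hfin hdeg hcon
  -- `c⁻¹` is a nonunit of `A`
  have hcA : c ∉ S.G.A := by
    intro hcA
    have h1 : c • g ∈ S.G.O := S.G.smul_mem hcA hg
    have h2 : c • S.φ a ∈ S.G.O := by
      have h3 : c • S.φ a = c • g - c • (g - S.φ a) := by rw [smul_sub]; ring
      rw [h3]
      exact sub_mem h1 hO
    apply hB
    have h4 : (⟨c • (g - S.φ a), hO⟩ : S.G.O) = ⟨c • g, h1⟩ - ⟨c • S.φ a, h2⟩ :=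
      Subtype.ext (by
        change c • (g - S.φ a) = c • g - c • S.φ a
        rw [smul_sub])
    rw [h4, map_sub, S.G.ρ_smul hcA hg]
    exact sub_mem (S.B.smul_mem hgB) (S.scaled_mem_B h2)
  have hinvA : c⁻¹ ∈ S.G.A := (S.G.A.mem_or_inv_mem c).resolve_left hcA
  have hnon : c⁻¹ ∈ S.G.A.nonunits := by
    rw [ValuationSubring.mem_nonunits_iff, map_inv₀]
    have h2 : 1 < S.G.A.valuation c := by
      rw [← not_le, ValuationSubring.valuation_le_one_iff]
      exact hcA
    exact inv_lt_one_of_one_lt₀ h2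
  have hres0 : S.G.res ⟨c⁻¹, hinvA⟩ = 0 := (S.G.res_eq_zero_iff _).mpr hnon
  -- elements of `O`
  set H : S.G.O := ⟨c • (g - S.φ a), hO⟩ with hH
  set C : S.G.O := ⟨algebraMap K F c⁻¹, (S.G.mem_O_iff _).mpr hinvA⟩ with hC
  have hρC : S.G.ρ C = 0 := by
    rw [hC, S.G.ρ_algebraMap ⟨c⁻¹, hinvA⟩, hres0, map_zero]
  have hCH : ((C * H : S.G.O) : F) = g - S.φ a := by
    rw [MulMemClass.coe_mul, hC, hH, ← Algebra.smul_def, smul_smul, inv_mul_cancel₀ hc, one_smul]
  have haO : S.φ a ∈ S.G.O := by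
    have h1 : S.φ a = g - ((C * H : S.G.O) : F) := by rw [hCH]; ring
    rw [h1]
    exact sub_mem hg (C * H).2
  set X : S.G.O := ⟨S.φ a, haO⟩ with hX
  have hgX : (⟨g, hg⟩ : S.G.O) = X + C * H := by
    apply Subtype.ext
    rw [AddMemClass.coe_add, hCH, hX]
    ring
  have hρX : S.G.ρ X = S.G.ρ ⟨g, hg⟩ := by
    rw [hgX, map_add, map_mul, hρC, zero_mul, add_zero]
  obtain ⟨e, he⟩ := powAddExpansion X (C * H) m
  -- the key element
  have hkey : c • S.φ (f - a ^ m) = ((m * X ^ (m - 1) * H + e * C * H ^ 2 : S.G.O) : F) := by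
    have h1 : S.φ (f - a ^ m) = (((X + C * H) ^ m - X ^ m : S.G.O) : F) := by
      rw [← hgX, map_sub, map_pow, ← hf]
      rfl
    rw [h1, he]
    have h2 : X ^ m + ↑m * X ^ (m - 1) * (C * H) + e * (C * H) ^ 2 - X ^ m =
        C * (m * X ^ (m - 1) * H + e * C * H ^ 2) := by ring
    rw [h2, MulMemClass.coe_mul, hC, ← Algebra.smul_def, smul_smul, mul_inv_cancel₀ hc, one_smul]
  have hmemO : c • S.φ (f - a ^ m) ∈ S.G.O := by rw [hkey]; exact Subtype.mem _
  have h1 := S.scaled_mem_B hmemO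
  have h2 : (⟨c • S.φ (f - a ^ m), hmemO⟩ : S.G.O) = m * X ^ (m - 1) * H + e * C * H ^ 2 :=
    Subtype.ext hkey
  rw [h2, map_add, map_mul, map_mul, map_natCast, map_pow, map_mul, map_mul, hρC, mul_zero,
    zero_mul, add_zero, hρX] at h1
  apply hB
  have hm' : (m : F') ≠ 0 := by
    have h3 : (m : F') = algebraMap k F' m := by rw [map_natCast]
    rw [h3]
    exact (map_ne_zero_iff _ (algebraMap k F').injective).mpr hm
  have hmB : (m : F') ∈ S.B := natCast_mem S.B m
  have h4 : S.G.ρ H = ((m : F') * S.G.ρ ⟨g, hg⟩ ^ (m - 1))⁻¹ *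
      ((m : F') * S.G.ρ ⟨g, hg⟩ ^ (m - 1) * S.G.ρ H) := by
    rw [← mul_assoc, inv_mul_cancel₀ (mul_ne_zero hm' (pow_ne_zero _ hg0)), one_mul]
  rw [h4]
  exact S.B.mul_mem (S.B.inv_mem (S.B.mul_mem hmB (pow_mem hgB _))) h1

end Setup

section Final

variable {K F₁ F k F' : Type*} [Field K] [Field F₁] [Field F] [Field k] [Field F']
    [Algebra K F₁] [Algebra K F] [Algebra k F'] [IsFF K F₁] [IsAlgClosed K]
    [IsFF K F] [IsFF k F'] [IsAlgClosed k] (S : Setup K F₁ F k F')

/-- **Kummer descent**: injectivity of the reduction on torsion for `F` implies injectivity for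
`F₁`, as soon as `[F : F₁] = [F' : B]`. -/
theorem Setup.isPrincipal_of_kummer (hfin : FiniteDimensional S.B F')
    (hdeg : finrankAlong K S.φ = finrank S.B F') {m : ℕ} (hm : (m : k) ≠ 0)
    (hT : ∀ D : Divisor K F, (m • D).IsPrincipal → (S.R.r D).IsPrincipal → D.IsPrincipal)
    {D : Divisor K F₁} {f : F₁} (h : S.φ f ∈ S.G.O) {w : F'} (hw : w ∈ S.B) (hw0 : w ≠ 0)
    (hf : f ≠ 0) (hD : m • D = div f) (hρ : S.G.ρ ⟨S.φ f, h⟩ = w ^ m)
    (htot : S.tot D = div w) : D.IsPrincipal := by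
  have hm0 : m ≠ 0 := by rintro rfl; exact hm Nat.cast_zero
  have hφf : S.φ f ≠ 0 := by simpa using hf
  have h1 : m • Divisor.pullbackAlong S.φ S.hφ D = div (S.φ f) := by
    rw [← map_nsmul, hD, pullbackAlong_div]
  obtain ⟨g₀, hg₀, hg₁⟩ := isPrincipal_iff.mp (hT (Divisor.pullbackAlong S.φ S.hφ D)
    (by rw [h1]; exact isPrincipal_div hφf)
    (by
      have : S.R.r (Divisor.pullbackAlong S.φ S.hφ D) = div w := htot
      rw [this]; exact isPrincipal_div hw0))
  -- normalise `g ^ m = φ f`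
  have h2 : (div (S.φ f) : Divisor K F) = div (g₀ ^ m) := by
    rw [← h1, hg₁, div_pow]
  obtain ⟨e, he, h3⟩ := exists_const_of_div_eq hφf (pow_ne_zero m hg₀) h2
  obtain ⟨e', he'⟩ := IsAlgClosed.exists_pow_nat_eq e (Nat.pos_of_ne_zero hm0)
  have he'0 : e' ≠ 0 := by
    rintro rfl
    rw [zero_pow hm0] at he'
    exact he he'.symm
  set g := e' • g₀ with hg
  have hgm : g ^ m = S.φ f := by rw [hg, _root_.smul_pow, he', h3]
  have hgO : g ∈ S.G.O := by
    have h4 : g ^ m ∈ S.G.O := hgm ▸ h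
    by_contra hcon
    have h5 : g⁻¹ ∈ S.G.O.nonunits := by
      rw [ValuationSubring.mem_nonunits_iff, map_inv₀]
      exact inv_lt_one_of_one_lt₀ (by
        rw [← not_le, ValuationSubring.valuation_le_one_iff]; exact hcon)
    rw [ValuationSubring.mem_nonunits_iff, map_inv₀] at h5
    rw [← ValuationSubring.valuation_le_one_iff, map_pow] at h4
    have h6 : 1 < S.G.O.valuation g := by
      rw [← not_le, ValuationSubring.valuation_le_one_iff]; exact hcon
    exact absurd (one_lt_pow₀ h6 hm0) (not_lt.mpr h4)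
  have hρg : S.G.ρ ⟨g, hgO⟩ ^ m = w ^ m := by
    rw [← hρ, ← S.G.ρ_pow hgO m (hgm ▸ h)]
    congr 1
    exact Subtype.ext hgm
  -- `ρ g = ζ w`
  have h7 : (div (S.G.ρ ⟨g, hgO⟩) : Divisor k F') = div w := by
    have h8 : m • (div (S.G.ρ ⟨g, hgO⟩) : Divisor k F') = m • div w := by
      rw [← div_pow, ← div_pow, hρg]
    exact smul_right_injective _ hm0 h8
  have hρg0 : S.G.ρ ⟨g, hgO⟩ ≠ 0 := by
    intro h8
    rw [h8, zero_pow hm0] at hρg
    exact pow_ne_zero m hw0 hρg.symm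
  obtain ⟨ζ, hζ, h9⟩ := exists_const_of_div_eq hρg0 hw0 h7
  have hgB : S.G.ρ ⟨g, hgO⟩ ∈ S.B := by rw [h9]; exact S.B.smul_mem hw
  obtain ⟨a, ha⟩ := S.mem_range_of_pow hfin hdeg hm hgO hgB hρg0 hgm
  -- conclude
  have ham : a ^ m = f := by
    have h11 : S.φ (a ^ m) = S.φ f := by rw [map_pow, ha, hgm]
    exact RingHom.injective (S.φ : F₁ →+* F) h11
  have ha0 : a ≠ 0 := by
    rintro rfl
    rw [zero_pow hm0] at ham
    exact hf ham.symm
  rw [isPrincipal_iff]
  refine ⟨a, ha0, ?_⟩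
  have h10 : m • D = m • (div a : Divisor K F₁) := by rw [hD, ← div_pow, ham]
  exact smul_right_injective _ hm0 h10

/-- Injectivity of the descended reduction map on torsion prime to the characteristic. -/
theorem Setup.red_injective_of_torsion (hfin : FiniteDimensional S.B F')
    (hdeg : finrankAlong K S.φ = finrank S.B F') {m : ℕ} (hm : (m : k) ≠ 0)
    (hT : ∀ D : Divisor K F, (m • D).IsPrincipal → (S.R.r D).IsPrincipal → D.IsPrincipal)
    (x : Pic0 K F₁) (hx : m • x = 0) (hr : S.red x = 0) : x = 0 :=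
  S.red_injective hm (fun _ _ h _ hw hw0 _ hf hD hρ htot =>
    S.isPrincipal_of_kummer hfin hdeg hm hT h hw hw0 hf hD hρ htot) x hx hr

end Final

end Fermat.Agent.Deuring
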