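import Fermat.Agent.Deuring.DivLemmas

/-!
# The reduction map on divisor classes, descended to a subfield
-/

set_option autoImplicit false

open AlgebraicCurve WithZero Module Polynomial
open scoped IntermediateField
open Fermat.Agent.RR Fermat.Agent.FF

namespace Fermat.Agent.Deuring

section DivB

variable {k F' : Type*} [Field k] [Field F'] [Algebra k F'] [HasPrincipalDivisors k F']

/-- Divisors of the functions in a subfield `B`. -/
def divB (B : IntermediateField k F') : AddSubgroup (Divisor k F') where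
  carrier := {D | ∃ h ∈ B, h ≠ 0 ∧ D = div h}
  zero_mem' := ⟨1, B.one_mem, one_ne_zero, div_one'.symm⟩
  add_mem' := by
    rintro D E ⟨f, hf, hf0, rfl⟩ ⟨g, hg, hg0, rfl⟩
    exact ⟨f * g, B.mul_mem hf hg, mul_ne_zero hf0 hg0, (RR.div_mul hf0 hg0).symm⟩
  neg_mem' := by
    rintro D ⟨f, hf, hf0, rfl⟩
    exact ⟨f⁻¹, B.inv_mem hf, inv_ne_zero hf0, (div_inv f).symm⟩

theorem mem_divB {B : IntermediateField k F'} {D : Divisor k F'} :
    D ∈ divB B ↔ ∃ h ∈ B, h ≠ 0 ∧ D = div h := Iff.rfl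

end DivB

/-- Reduction data for `F`, together with a subfield `φ : F₁ → F` reducing into `B`. -/
structure Setup (K F₁ F k F' : Type*) [Field K] [Field F₁] [Field F] [Field k] [Field F']
    [Algebra K F₁] [Algebra K F] [Algebra k F'] [HasPrincipalDivisors K F₁]
    [HasPrincipalDivisors K F] [HasPrincipalDivisors k F'] where
  G : GaussData K F k F'
  R : RedMap G
  φ : F₁ →ₐ[K] F
  hφ : φ.toRingHom.IsIntegral
  hFI : FundamentalIdentityAlong K φ hφ
  B : IntermediateField k F'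
  hB : ∀ (f : F₁) (h : φ f ∈ G.O), G.ρ ⟨φ f, h⟩ ∈ B

namespace Setup

variable {K F₁ F k F' : Type*} [Field K] [Field F₁] [Field F] [Field k] [Field F']
    [Algebra K F₁] [Algebra K F] [Algebra k F'] [HasPrincipalDivisors K F₁]
    [HasPrincipalDivisors K F] [HasPrincipalDivisors k F'] (S : Setup K F₁ F k F')

/-- the target of the reduction map -/
abbrev Tgt : Type _ := Divisor k F' ⧸ divB S.B

/-- the reduction map on divisors -/
noncomputable def tot : Divisor K F₁ →+ Divisor k F' :=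
  S.R.r.comp (Divisor.pullbackAlong S.φ S.hφ)

theorem tot_apply (D : Divisor K F₁) : S.tot D = S.R.r (Divisor.pullbackAlong S.φ S.hφ D) := rfl

theorem tot_nonneg {D : Divisor K F₁} (hD : 0 ≤ D) : 0 ≤ S.tot D :=
  S.R.nonneg _ (pullbackAlong_nonneg _ _ hD)

theorem degree_tot (D : Divisor K F₁) :
    Divisor.degree (S.tot D) = finrankAlong K S.φ * Divisor.degree D := by
  rw [tot_apply, S.R.degree_r, Divisor.degree_pullbackAlong S.φ S.hφ S.hFI]

theorem tot_div {f : F₁} (h : S.φ f ∈ S.G.O) (h0 : S.G.ρ ⟨S.φ f, h⟩ ≠ 0) :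
    S.tot (div f) = div (S.G.ρ ⟨S.φ f, h⟩) := by
  rw [tot_apply, pullbackAlong_div, S.R.r_div _ h h0]

theorem exists_scale {f : F₁} (hf : f ≠ 0) :
    ∃ (c : K) (_ : c ≠ 0) (h : S.φ (c • f) ∈ S.G.O), S.G.ρ ⟨S.φ (c • f), h⟩ ≠ 0 := by
  obtain ⟨c, hc, h, h0⟩ := S.G.exists_scale (f := S.φ f) (by simpa using hf)
  have h1 : S.φ (c • f) = c • S.φ f := map_smul _ _ _
  refine ⟨c, hc, h1 ▸ h, ?_⟩
  convert h0 using 3

theorem tot_mem_divB {D : Divisor K F₁} (hD : D.IsPrincipal) : S.tot D ∈ divB S.B := by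
  obtain ⟨f, hf, rfl⟩ := isPrincipal_iff.mp hD
  obtain ⟨c, hc, h, h0⟩ := S.exists_scale hf
  rw [← div_smul hc, S.tot_div h h0]
  exact ⟨_, S.hB _ _, h0, rfl⟩

/-- **The reduction map** on divisor classes of degree zero. -/
noncomputable def red : Pic0 K F₁ →+ S.Tgt :=
  QuotientAddGroup.lift _
    (((QuotientAddGroup.mk' (divB S.B)).comp S.tot).comp (Divisor.degZero (K := K) (F := F₁)).subtype)
    (by
      rintro ⟨D, hD0⟩ hD
      rw [AddSubgroup.mem_addSubgroupOf] at hD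
      rw [AddMonoidHom.mem_ker]
      exact (QuotientAddGroup.eq_zero_iff _).mpr (S.tot_mem_divB hD))

theorem red_mk (D : Divisor.degZero (K := K) (F := F₁)) :
    S.red (Pic0.mk D) = QuotientAddGroup.mk (S.tot (D : Divisor K F₁)) := rfl

end Setup

/-- the action of a semilinear automorphism on divisors, as a homomorphism -/
noncomputable def autHom {K F : Type*} [Field K] [Field F] [Algebra K F]
    (g : SemilinearAut K F) : Divisor K F →+ Divisor K F :=
  DistribSMul.toAddMonoidHom (Divisor K F) g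

theorem autHom_apply {K F : Type*} [Field K] [Field F] [Algebra K F]
    (g : SemilinearAut K F) (D : Divisor K F) : autHom g D = g • D := rfl

/-- A semilinear automorphism preserving `B` acts on the quotient. -/
noncomputable def actB {k F' : Type*} [Field k] [Field F'] [Algebra k F'] [HasPrincipalDivisors k F']
    (B : IntermediateField k F') (Φ : SemilinearAut k F') (hΦ : ∀ h ∈ B, Φ • h ∈ B) :
    (Divisor k F' ⧸ divB B) →+ (Divisor k F' ⧸ divB B) :=
  QuotientAddGroup.map _ _ (DistribSMul.toAddMonoidHom (Divisor k F') Φ) (by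
    rintro _ ⟨h, hB, h0, rfl⟩
    refine ⟨Φ • h, hΦ h hB, ?_, (div_smul_aut Φ h).symm⟩
    rw [SemilinearAut.smul_def]
    exact (map_ne_zero_iff _ (SemilinearAut.toRingAut Φ).injective).mpr h0)

theorem actB_mk {k F' : Type*} [Field k] [Field F'] [Algebra k F'] [HasPrincipalDivisors k F']
    (B : IntermediateField k F') (Φ : SemilinearAut k F') (hΦ : ∀ h ∈ B, Φ • h ∈ B)
    (D : Divisor k F') :
    actB B Φ hΦ (QuotientAddGroup.mk D) = QuotientAddGroup.mk (Φ • D) := rfl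

namespace Setup

variable {K F₁ F k F' : Type*} [Field K] [Field F₁] [Field F] [Field k] [Field F']
    [Algebra K F₁] [Algebra K F] [Algebra k F'] [IsFF K F₁] [IsAlgClosed K]
    [IsFF K F] [IsFF k F'] [IsAlgClosed k] (S : Setup K F₁ F k F')

attribute [local instance] nonempty_place finiteResidue

omit [IsAlgClosed K] [IsAlgClosed k] in
theorem tot_single_nonneg (v : Place K F₁) : 0 ≤ S.tot (Finsupp.single v 1) :=
  S.tot_nonneg (single_nonneg v)

omit [IsAlgClosed k] in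
theorem degree_tot_single (v : Place K F₁) :
    Divisor.degree (S.tot (Finsupp.single v 1)) = finrankAlong K S.φ := by
  rw [degree_tot, degree_single_one, mul_one]

/-- **Galois compatibility**, on divisors of degree zero. -/
theorem tot_smul (g : SemilinearAut K F₁) (Φ : SemilinearAut k F')
    (hg : ∀ (f : F₁) (h : S.φ f ∈ S.G.O), ∃ h' : S.φ (g • f) ∈ S.G.O,
      S.G.ρ ⟨S.φ (g • f), h'⟩ = Φ • S.G.ρ ⟨S.φ f, h⟩)
    {D : Divisor K F₁} (hD : Divisor.degree D = 0) : S.tot (g • D) = Φ • S.tot D := by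
  refine eq_of_bounded
    (S.tot.comp (autHom g)) ((autHom Φ).comp S.tot) (finrankAlong K S.φ)
    ?_ ?_ ?_ ?_ ?_ hD
  · intro v
    rw [AddMonoidHom.comp_apply, autHom_apply]
    exact S.tot_nonneg (aut_smul_nonneg g (single_nonneg v))
  · intro v
    rw [AddMonoidHom.comp_apply, autHom_apply]
    exact aut_smul_nonneg Φ (S.tot_single_nonneg v)
  · intro v
    rw [AddMonoidHom.comp_apply, autHom_apply, degree_tot, SemilinearAut.degree_smul,
      degree_single_one, mul_one]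
  · intro v
    rw [AddMonoidHom.comp_apply, autHom_apply, SemilinearAut.degree_smul, degree_tot_single]
  · intro f hf
    rw [AddMonoidHom.comp_apply, autHom_apply, AddMonoidHom.comp_apply, autHom_apply]
    obtain ⟨c, hc, h, h0⟩ := S.exists_scale hf
    rw [← div_smul hc, S.tot_div h h0]
    obtain ⟨h', h1⟩ := hg _ h
    rw [← div_smul_aut, S.tot_div h' (by
      rw [h1, SemilinearAut.smul_def]
      exact (map_ne_zero_iff _ (SemilinearAut.toRingAut Φ).injective).mpr h0), h1, div_smul_aut]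

/-- **Galois compatibility** of the reduction map. -/
theorem red_smul (g : SemilinearAut K F₁) (Φ : SemilinearAut k F') (hΦ : ∀ h ∈ S.B, Φ • h ∈ S.B)
    (hg : ∀ (f : F₁) (h : S.φ f ∈ S.G.O), ∃ h' : S.φ (g • f) ∈ S.G.O,
      S.G.ρ ⟨S.φ (g • f), h'⟩ = Φ • S.G.ρ ⟨S.φ f, h⟩)
    (x : Pic0 K F₁) : S.red (g • x) = actB S.B Φ hΦ (S.red x) := by
  obtain ⟨⟨D, hD⟩, rfl⟩ := Pic0.mk_surjective x
  rw [SemilinearAut.pic0_smul_mk, red_mk, red_mk, actB_mk, SemilinearAut.coe_degZeroSMulHom,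
    S.tot_smul g Φ hg hD]

/-- Galois compatibility of the reduction map, trivial action. -/
theorem red_smul_eq (g : SemilinearAut K F₁)
    (hg : ∀ (f : F₁) (h : S.φ f ∈ S.G.O), ∃ h' : S.φ (g • f) ∈ S.G.O,
      S.G.ρ ⟨S.φ (g • f), h'⟩ = S.G.ρ ⟨S.φ f, h⟩)
    (x : Pic0 K F₁) : S.red (g • x) = S.red x := by
  have h1 : ∀ h ∈ S.B, (1 : SemilinearAut k F') • h ∈ S.B := fun h hh => by
    rwa [one_smul]
  rw [S.red_smul g 1 h1 (fun f h => by
    obtain ⟨h', h2⟩ := hg f h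
    exact ⟨h', by rw [h2, one_smul]⟩)]
  obtain ⟨D, rfl⟩ := Pic0.mk_surjective x
  rw [red_mk, actB_mk, one_smul]

/-- **Eichler–Shimura**, on divisors of degree zero. -/
theorem tot_hecke (T : Divisor K F₁ →+ Divisor K F₁) (t : F₁ → F₁) (d : ℤ)
    (hT0 : ∀ v, 0 ≤ T (Finsupp.single v 1))
    (hTd : ∀ v, Divisor.degree (T (Finsupp.single v 1)) ≤ d)
    (hTt : ∀ f, f ≠ 0 → T (div f) = div (t f)) (Φ : SemilinearAut k F') (ℓ : ℕ)
    (ht : ∀ (f : F₁) (h : S.φ f ∈ S.G.O), S.G.ρ ⟨S.φ f, h⟩ ≠ 0 → ∃ h' : S.φ (t f) ∈ S.G.O,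
      S.G.ρ ⟨S.φ (t f), h'⟩ = (Φ⁻¹ • S.G.ρ ⟨S.φ f, h⟩) ^ ℓ * (Φ • S.G.ρ ⟨S.φ f, h⟩))
    {D : Divisor K F₁} (hD : Divisor.degree D = 0) :
    S.tot (T D) = ℓ • (Φ⁻¹ • S.tot D) + Φ • S.tot D := by
  have hn0 : (0 : ℤ) ≤ finrankAlong K S.φ := Int.natCast_nonneg _
  refine eq_of_bounded (S.tot.comp T)
    (ℓ • ((autHom Φ⁻¹).comp S.tot) + (autHom Φ).comp S.tot)
    (finrankAlong K S.φ * (|d| + ℓ + 1)) ?_ ?_ ?_ ?_ ?_ hD
  · intro v
    exact S.tot_nonneg (hT0 v)
  · intro v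
    change 0 ≤ ℓ • (Φ⁻¹ • S.tot (Finsupp.single v 1)) + Φ • S.tot (Finsupp.single v 1)
    exact add_nonneg (nsmul_nonneg (aut_smul_nonneg _ (S.tot_single_nonneg v)) _)
      (aut_smul_nonneg _ (S.tot_single_nonneg v))
  · intro v
    change Divisor.degree (S.tot (T (Finsupp.single v 1))) ≤ _
    rw [degree_tot]
    apply mul_le_mul_of_nonneg_left _ hn0
    have h1 := hTd v
    have h2 := le_abs_self d
    have h3 : (0 : ℤ) ≤ ℓ := Int.natCast_nonneg _
    omega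
  · intro v
    change Divisor.degree (ℓ • (Φ⁻¹ • S.tot (Finsupp.single v 1)) +
      Φ • S.tot (Finsupp.single v 1)) ≤ _
    rw [map_add, map_nsmul, SemilinearAut.degree_smul, SemilinearAut.degree_smul,
      degree_tot_single, nsmul_eq_mul]
    have h2 : 0 ≤ finrankAlong K S.φ * |d| := mul_nonneg hn0 (abs_nonneg d)
    nlinarith
  · intro f hf
    change S.tot (T (div f)) = ℓ • (Φ⁻¹ • S.tot (div f)) + Φ • S.tot (div f)
    obtain ⟨c, hc, h, h0⟩ := S.exists_scale hf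
    obtain ⟨h', h1⟩ := ht _ h h0
    have hΦ1 : Φ⁻¹ • S.G.ρ ⟨S.φ (c • f), h⟩ ≠ 0 := by
      rw [SemilinearAut.smul_def]
      exact (map_ne_zero_iff _ (SemilinearAut.toRingAut Φ⁻¹).injective).mpr h0
    have hΦ2 : Φ • S.G.ρ ⟨S.φ (c • f), h⟩ ≠ 0 := by
      rw [SemilinearAut.smul_def]
      exact (map_ne_zero_iff _ (SemilinearAut.toRingAut Φ).injective).mpr h0
    rw [← div_smul hc, hTt _ (smul_ne_zero hc hf), S.tot_div h h0,
      S.tot_div h' (by rw [h1]; exact mul_ne_zero (pow_ne_zero _ hΦ1) hΦ2), h1,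
      RR.div_mul (pow_ne_zero _ hΦ1) hΦ2, div_pow, div_smul_aut, div_smul_aut]

/-- **Eichler–Shimura** for the reduction map. -/
theorem red_hecke (T : Divisor K F₁ →+ Divisor K F₁) (t : F₁ → F₁) (d : ℤ)
    (hT0 : ∀ v, 0 ≤ T (Finsupp.single v 1))
    (hTd : ∀ v, Divisor.degree (T (Finsupp.single v 1)) ≤ d)
    (hTt : ∀ f, f ≠ 0 → T (div f) = div (t f)) (Φ : SemilinearAut k F')
    (hΦ : ∀ h ∈ S.B, Φ • h ∈ S.B) (ℓ : ℕ)
    (ht : ∀ (f : F₁) (h : S.φ f ∈ S.G.O), S.G.ρ ⟨S.φ f, h⟩ ≠ 0 → ∃ h' : S.φ (t f) ∈ S.G.O,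
      S.G.ρ ⟨S.φ (t f), h'⟩ = (Φ⁻¹ • S.G.ρ ⟨S.φ f, h⟩) ^ ℓ * (Φ • S.G.ρ ⟨S.φ f, h⟩))
    (TP : Pic0 K F₁ → Pic0 K F₁)
    (hTP : ∀ D : Divisor.degZero (K := K) (F := F₁),
      ∃ D' : Divisor.degZero (K := K) (F := F₁), (D' : Divisor K F₁) = T D ∧
        TP (Pic0.mk D) = Pic0.mk D') (x : Pic0 K F₁) :
    actB S.B Φ hΦ (actB S.B Φ hΦ (S.red x)) - actB S.B Φ hΦ (S.red (TP x)) + ℓ • S.red x = 0 := by
  obtain ⟨D, rfl⟩ := Pic0.mk_surjective x
  obtain ⟨D', hD', h1⟩ := hTP D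
  rw [h1, red_mk, red_mk, hD', S.tot_hecke T t d hT0 hTd hTt Φ ℓ ht D.2, actB_mk, actB_mk,
    actB_mk, smul_add, smul_comm Φ ℓ, smul_inv_smul, ← QuotientAddGroup.mk_nsmul,
    ← QuotientAddGroup.mk_sub, ← QuotientAddGroup.mk_add]
  rw [show Φ • Φ • S.tot (D : Divisor K F₁) - (ℓ • S.tot (D : Divisor K F₁) +
    Φ • Φ • S.tot (D : Divisor K F₁)) + ℓ • S.tot (D : Divisor K F₁) = 0 by abel]
  rfl

omit [IsAlgClosed K] in
/-- **Injectivity on prime-to-characteristic torsion**, from the Kummer form. -/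
theorem red_injective {m : ℕ} (hm : (m : k) ≠ 0)
    (hK : ∀ (D : Divisor K F₁) (f : F₁) (h : S.φ f ∈ S.G.O) (w : F'), w ∈ S.B → w ≠ 0 →
      Divisor.degree D = 0 → f ≠ 0 →
      m • D = div f → S.G.ρ ⟨S.φ f, h⟩ = w ^ m → S.tot D = div w → D.IsPrincipal)
    (x : Pic0 K F₁) (hx : m • x = 0) (hr : S.red x = 0) : x = 0 := by
  obtain ⟨⟨D, hD0⟩, rfl⟩ := Pic0.mk_surjective x
  have hm0 : m ≠ 0 := by rintro rfl; exact hm Nat.cast_zero
  -- `m D` is principal
  have h1 : (m • D).IsPrincipal := by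
    have h2 : Pic0.mk (m • (⟨D, hD0⟩ : Divisor.degZero (K := K) (F := F₁))) = 0 := by
      rw [← hx]; rfl
    have h3 := (QuotientAddGroup.eq_zero_iff _).mp h2
    rw [AddSubgroup.mem_addSubgroupOf] at h3
    exact h3
  obtain ⟨f₀, hf₀, hdiv₀⟩ := isPrincipal_iff.mp h1
  obtain ⟨c, hc, h, h0⟩ := S.exists_scale hf₀
  rw [← div_smul hc] at hdiv₀
  rw [red_mk] at hr
  obtain ⟨w, hwB, hw0, hw⟩ := (QuotientAddGroup.eq_zero_iff _).mp hr
  -- `ρ(φ f)` and `w ^ m` have the same divisor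
  have h4 : (div (S.G.ρ ⟨S.φ (c • f₀), h⟩) : Divisor k F') = div (w ^ m) := by
    rw [← S.tot_div h h0, ← hdiv₀, map_nsmul, div_pow]
    exact congrArg _ hw
  obtain ⟨e, he, h5⟩ := exists_const_of_div_eq h0 (pow_ne_zero m hw0) h4
  obtain ⟨e', he'⟩ := IsAlgClosed.exists_pow_nat_eq e (Nat.pos_of_ne_zero hm0)
  have he'0 : e' ≠ 0 := by
    rintro rfl
    rw [zero_pow hm0] at he'
    exact he he'.symm
  have h6 : D.IsPrincipal := by
    refine hK D (c • f₀) h (e' • w) (S.B.smul_mem hwB) (smul_ne_zero he'0 hw0) hD0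
      (smul_ne_zero hc hf₀) hdiv₀ ?_ ?_
    · rw [h5, _root_.smul_pow, he']
    · rw [div_smul he'0]; exact hw
  exact (QuotientAddGroup.eq_zero_iff _).mpr (by
    rw [AddSubgroup.mem_addSubgroupOf]; exact h6)

end Setup

end Fermat.Agent.Deuring
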