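import Fermat.Agent.Deuring.Red

/-!
# The bounded homomorphism principle
-/

set_option autoImplicit false

open AlgebraicCurve WithZero Module Polynomial
open scoped IntermediateField
open Fermat.Agent.RR Fermat.Agent.FF

namespace Fermat.Agent.Deuring

variable {K F : Type*} [Field K] [Field F] [Algebra K F] [IsFF K F] [IsAlgClosed K]

attribute [local instance] nonempty_place finiteResidue

theorem degree_eq_sum_one (D : Divisor K F) : Divisor.degree D = ∑ v ∈ D.support, D v := by
  rw [degree_eq_sum D D.support (Finset.Subset.refl _)]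
  exact Finset.sum_congr rfl fun v _ => by rw [deg_eq_one, Nat.cast_one, mul_one]

theorem le_degree {D : Divisor K F} (hD : 0 ≤ D) (v : Place K F) : D v ≤ Divisor.degree D := by
  classical
  have h1 : (Finsupp.single v (D v) : Divisor K F) ≤ D := by
    intro w
    rw [Finsupp.single_apply]
    split_ifs with h
    · rw [h]
    · exact hD w
  have := RR.degree_mono h1
  rwa [degree_single_one] at this

theorem abs_le_of_nonneg (δ : Divisor K F →+ ℤ) (C : ℤ)
    (hbd : ∀ v : Place K F, |δ (Finsupp.single v 1)| ≤ C) {E : Divisor K F} (hE : 0 ≤ E) :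
    |δ E| ≤ C * Divisor.degree E := by
  have h1 : δ E = ∑ v ∈ E.support, E v * δ (Finsupp.single v 1) := by
    conv_lhs => rw [← Finsupp.sum_single E]
    rw [Finsupp.sum, map_sum]
    refine Finset.sum_congr rfl fun v _ => ?_
    have : (Finsupp.single v (E v) : Divisor K F) = E v • Finsupp.single v 1 := by simp
    rw [this, map_zsmul, smul_eq_mul]
  rw [h1, degree_eq_sum_one, Finset.mul_sum]
  refine (Finset.abs_sum_le_sum_abs _ _).trans (Finset.sum_le_sum fun v _ => ?_)
  rw [abs_mul, mul_comm]
  have h2 : |E v| = E v := abs_of_nonneg (hE v)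
  rw [h2]
  exact mul_le_mul_of_nonneg_right (hbd v) (hE v)

/-- **Bounded homomorphism principle.** -/
theorem eq_zero_of_bounded (δ : Divisor K F →+ ℤ) (C : ℤ)
    (hbd : ∀ v : Place K F, |δ (Finsupp.single v 1)| ≤ C)
    (hprin : ∀ f : F, f ≠ 0 → δ (div f) = 0) {D : Divisor K F} (hD : Divisor.degree D = 0) :
    δ D = 0 := by
  obtain ⟨x, hx⟩ := IsFF.exists_transcendental (K := K) (F := F)
  have := IsFF.finite_adjoin x hx
  obtain ⟨γ, hγ⟩ := riemann_inequality (K := K) x hx
  obtain ⟨P⟩ := nonempty_place (K := K) (F := F)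
  set n : ℤ := |γ| + 1 with hn
  have hn0 : 0 < n := by have := abs_nonneg γ; omega
  have key : ∀ D : Divisor K F, Divisor.degree D = 0 →
      |δ D| ≤ C * n + |δ (Finsupp.single P n)| := by
    intro D hD
    have h1 := hγ (D + Finsupp.single P n)
    rw [map_add, hD, degree_single_one, zero_add] at h1
    have h2 : 0 < ell (D + Finsupp.single P n) := by
      have := le_abs_self γ
      omega
    have h3 : riemannRochSpace (D + Finsupp.single P n) ≠ ⊥ := by
      intro h
      rw [ell, h, finrank_bot] at h2
      exact absurd h2 (lt_irrefl _)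
    obtain ⟨f, hf, hf0⟩ := (Submodule.ne_bot_iff _).mp h3
    set E := div f + (D + Finsupp.single P n) with hE
    have hE0 : 0 ≤ E := (mem_riemannRochSpace_iff_div hf0).mp hf
    have hdE : Divisor.degree E = n := by
      rw [hE, map_add, map_add, degree_div, hD, degree_single_one]; ring
    have h4 : D = E - div f - Finsupp.single P n := by rw [hE]; abel
    have h5 : δ D = δ E - δ (Finsupp.single P n) := by
      conv_lhs => rw [h4]
      rw [map_sub, map_sub, hprin f hf0, sub_zero]
    rw [h5]
    calc |δ E - δ (Finsupp.single P n)| ≤ |δ E| + |δ (Finsupp.single P n)| := abs_sub _ _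
      _ ≤ C * n + |δ (Finsupp.single P n)| := by
        have := abs_le_of_nonneg δ C hbd hE0
        rw [hdE] at this
        omega
  set B := C * n + |δ (Finsupp.single P n)| with hB
  by_contra hne
  have h1 : 1 ≤ |δ D| := Int.one_le_abs hne
  have h2 := key ((B.toNat + 1) • D) (by rw [map_nsmul, hD, smul_zero])
  rw [map_nsmul, nsmul_eq_mul, abs_mul] at h2
  have h3 : |((B.toNat + 1 : ℕ) : ℤ)| = B.toNat + 1 := by
    rw [abs_of_nonneg (by positivity)]; push_cast; ring
  rw [h3] at h2
  have h4 : B ≤ B.toNat := Int.self_le_toNat B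
  nlinarith

variable {k F' : Type*} [Field k] [Field F'] [Algebra k F'] [IsFF k F'] [IsAlgClosed k]

/-- Two positive bounded homomorphisms on divisors agreeing on principal divisors agree in
degree zero. -/
theorem eq_of_bounded (α β : Divisor K F →+ Divisor k F') (c : ℤ)
    (hα : ∀ v : Place K F, 0 ≤ α (Finsupp.single v 1))
    (hβ : ∀ v : Place K F, 0 ≤ β (Finsupp.single v 1))
    (hdα : ∀ v : Place K F, Divisor.degree (α (Finsupp.single v 1)) ≤ c)
    (hdβ : ∀ v : Place K F, Divisor.degree (β (Finsupp.single v 1)) ≤ c)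
    (hprin : ∀ f : F, f ≠ 0 → α (div f) = β (div f)) {D : Divisor K F}
    (hD : Divisor.degree D = 0) : α D = β D := by
  ext Q
  have h := eq_zero_of_bounded ((Finsupp.applyAddHom Q).comp (α - β)) c ?_ ?_ hD
  · simp only [AddMonoidHom.comp_apply, AddMonoidHom.sub_apply, Finsupp.applyAddHom_apply,
      Finsupp.sub_apply] at h
    omega
  · intro v
    simp only [AddMonoidHom.comp_apply, AddMonoidHom.sub_apply, Finsupp.applyAddHom_apply,
      Finsupp.sub_apply]
    have h1 := le_degree (hα v) Q
    have h2 := le_degree (hβ v) Q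
    have h3 := hα v Q
    have h4 := hβ v Q
    have h5 := hdα v
    have h6 := hdβ v
    simp only [Finsupp.coe_zero, Pi.zero_apply] at h3 h4
    rw [abs_le]
    constructor <;> omega
  · intro f hf
    simp only [AddMonoidHom.comp_apply, AddMonoidHom.sub_apply, hprin f hf, sub_self, map_zero]

end Fermat.Agent.Deuring
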