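import Fermat.Agent.RR.Riemann
import Mathlib.RingTheory.AlgebraicIndependent.TranscendenceBasis
import Mathlib.FieldTheory.IntermediateField.Adjoin.Algebra

/-!
# Function field basics for the Deuring reduction: transcendental elements, exact degree of the
pole divisor, `ℓ(D)` for large degree.
-/

set_option autoImplicit false

open AlgebraicCurve WithZero Module Polynomial
open scoped IntermediateField
open Fermat.Agent.RR

namespace Fermat.Agent.Deuring

variable {K F : Type*} [Field K] [Field F] [Algebra K F]

open scoped IntermediateField.algebraAdjoinAdjoin in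
theorem isAlgebraic_adjoin_iff (x : F) :
    Algebra.IsAlgebraic (Algebra.adjoin K {x}) F ↔ Algebra.IsAlgebraic K⟮x⟯ F := by
  exact (IsFractionRing.comap_isAlgebraic_iff (A := Algebra.adjoin K {x}) (K := K⟮x⟯) (C := F))

/-- In a field finite over `K(x)`, it is finite over `K(y)` for every transcendental `y`. -/
theorem finiteDimensional_adjoin (x : F) [FiniteDimensional K⟮x⟯ F]
    (y : F) (hy : Transcendental K y) : FiniteDimensional K⟮y⟯ F := by
  have h1 : Algebra.EssFiniteType K K⟮x⟯ := by
    rw [IntermediateField.essFiniteType_iff]
    exact IntermediateField.fg_adjoin_of_finite (Set.finite_singleton x)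
  have h2 : Algebra.EssFiniteType K F := Algebra.EssFiniteType.comp K K⟮x⟯ F
  have h3 : Algebra.EssFiniteType K⟮y⟯ F := Algebra.EssFiniteType.of_comp K K⟮y⟯ F
  have hx0 : Algebra.IsAlgebraic (Algebra.adjoin K {x}) F :=
    (isAlgebraic_adjoin_iff x).mpr inferInstance
  have hx : Algebra.trdeg K F ≤ 1 := by
    have := Algebra.IsAlgebraic.trdeg_le_cardinalMk K ({x} : Set F)
    simpa using this
  have h4 : IsTranscendenceBasis K (fun _ : Unit => y) := by
    apply AlgebraicIndependent.isTranscendenceBasis_of_lift_trdeg_le_of_finite
    · rw [algebraicIndependent_unique_type_iff]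
      exact hy
    · simpa using hx
  have h5 : Algebra.IsAlgebraic K⟮y⟯ F := by
    rw [← isAlgebraic_adjoin_iff]
    have := h4.isAlgebraic
    rwa [Set.range_const] at this
  exact Algebra.finite_of_essFiniteType_of_isAlgebraic

end Fermat.Agent.Deuring
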