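import Fermat.Agent.Deuring.DivLemmas

/-!
# Reduction of places from a multiple of it

A positive homomorphism `T` on divisors with `T (div f) = n • div (ρ f)` is `n` times a map of
places, when the divisor class group is `n`-divisible.
-/

set_option autoImplicit false

open AlgebraicCurve WithZero Module Polynomial
open scoped IntermediateField
open Fermat.Agent.RR Fermat.Agent.FF

namespace Fermat.Agent.Deuring

section Eff

variable {K F : Type*} [Field K] [Field F] [Algebra K F] [IsFF K F] [IsAlgClosed K]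

/-- in an effective divisor, two different points have total multiplicity at most the degree. -/
theorem add_le_degree {D : Divisor K F} (hD : 0 ≤ D) {v w : Place K F} (hvw : v ≠ w) :
    D v + D w ≤ Divisor.degree D := by
  classical
  have h1 : (0 : Divisor K F) ≤ D - Finsupp.single v (D v) := by
    intro u
    rw [Finsupp.sub_apply, Finsupp.single_apply]
    split_ifs with h
    · subst h; simp
    · simpa using hD u
  have h2 := le_degree h1 w
  rw [map_sub, degree_single_one, Finsupp.sub_apply, Finsupp.single_apply, if_neg hvw,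
    sub_zero] at h2
  omega

/-- An effective divisor of degree `n` all of whose coefficients are divisible by `n` is `n` times
a place. -/
theorem exists_eq_nsmul_single {D : Divisor K F} (hD : 0 ≤ D) {n : ℕ} (hn : n ≠ 0)
    (hdeg : Divisor.degree D = n) (hdvd : ∀ v, (n : ℤ) ∣ D v) :
    ∃ v, D = n • Finsupp.single v 1 := by
  classical
  have hn' : (0 : ℤ) < n := by exact_mod_cast Nat.pos_of_ne_zero hn
  obtain ⟨v, hv⟩ : ∃ v, D v ≠ 0 := by
    by_contra hcon
    push Not at hcon
    have : D = 0 := Finsupp.ext hcon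
    rw [this, map_zero] at hdeg
    omega
  have hvn : D v = n := by
    have h1 := le_degree hD v
    rw [hdeg] at h1
    exact le_antisymm h1 (Int.le_of_dvd (lt_of_le_of_ne (hD v) (Ne.symm hv)) (hdvd v))
  refine ⟨v, ?_⟩
  ext w
  rw [Finsupp.smul_apply, Finsupp.single_apply]
  split_ifs with h
  · subst h
    rw [hvn]; simp
  · have h1 := add_le_degree hD h
    have h2 : 0 ≤ D w := hD w
    rw [hdeg, hvn] at h1
    simp only [smul_zero]
    omega

/-- there is a function with nonzero divisor -/
theorem exists_div_ne_zero : ∃ f : F, f ≠ 0 ∧ (div f : Divisor K F) ≠ 0 := by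
  obtain ⟨x, hx⟩ := IsFF.exists_transcendental (K := K) (F := F)
  have hx0 : x ≠ 0 := by
    rintro rfl
    exact hx isAlgebraic_zero
  refine ⟨x, hx0, fun h => ?_⟩
  obtain ⟨c, _, hc⟩ := exists_const_of_div_eq hx0 one_ne_zero
    (h.trans div_one'.symm : (div x : Divisor K F) = div 1)
  apply hx
  rw [hc, Algebra.smul_def, mul_one]
  exact isAlgebraic_algebraMap c

end Eff

variable {K F k F' : Type*} [Field K] [Field F] [Algebra K F] [IsFF K F] [IsAlgClosed K]
  [Field k] [Field F'] [Algebra k F'] [IsFF k F'] [IsAlgClosed k]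

attribute [local instance] nonempty_place finiteResidue

omit [IsAlgClosed K] [IsAlgClosed k] in
/-- divisibility of the class group gives divisibility of the values of `T` in degree zero -/
theorem dvd_of_divisible (G : GaussData K F k F') {n : ℕ}
    (T : Divisor K F →+ Divisor k F')
    (hTdiv : ∀ (f : F) (h : f ∈ G.O), G.ρ ⟨f, h⟩ ≠ 0 → T (div f) = n • div (G.ρ ⟨f, h⟩))
    (hdiv : ∀ x : Pic0 K F, ∃ y, n • y = x) {D : Divisor K F} (hD : Divisor.degree D = 0)
    (Q : Place k F') : (n : ℤ) ∣ T D Q := by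
  obtain ⟨y, hy⟩ := hdiv (Pic0.mk ⟨D, hD⟩)
  obtain ⟨⟨E, hE⟩, rfl⟩ := Pic0.mk_surjective y
  have h1 : (D - n • E).IsPrincipal := by
    have h2 : Pic0.mk ((⟨D, hD⟩ : Divisor.degZero (K := K) (F := F)) - n • ⟨E, hE⟩) = 0 := by
      have h3 : Pic0.mk ((⟨D, hD⟩ : Divisor.degZero (K := K) (F := F)) - n • ⟨E, hE⟩) =
        Pic0.mk ⟨D, hD⟩ - n • Pic0.mk ⟨E, hE⟩ := rfl
      rw [h3, hy, sub_self]
    have h3 := (QuotientAddGroup.eq_zero_iff _).mp h2
    rw [AddSubgroup.mem_addSubgroupOf] at h3
    exact h3
  obtain ⟨f, hf, hfD⟩ := isPrincipal_iff.mp h1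
  obtain ⟨c, hc, h, h0⟩ := G.exists_scale hf
  have h4 : T D = n • (T E + div (G.ρ ⟨c • f, h⟩)) := by
    have h5 : D = (D - n • E) + n • E := by abel
    rw [h5, hfD, map_add, ← div_smul hc, hTdiv _ h h0, map_nsmul, smul_add, add_comm]
  rw [h4, Finsupp.smul_apply, nsmul_eq_mul]
  exact dvd_mul_right _ _

/-- **The reduction of places.** -/
theorem exists_placeMap (G : GaussData K F k F') {n : ℕ} (hn : n ≠ 0)
    (T : Divisor K F →+ Divisor k F') (hT0 : ∀ v, 0 ≤ T (Finsupp.single v 1))
    (hTd : ∀ v, Divisor.degree (T (Finsupp.single v 1)) = n)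
    (hTdiv : ∀ (f : F) (h : f ∈ G.O), G.ρ ⟨f, h⟩ ≠ 0 → T (div f) = n • div (G.ρ ⟨f, h⟩))
    (hdiv : ∀ x : Pic0 K F, ∃ y, n • y = x) :
    ∃ r : Place K F → Place k F', (∀ D, T D = n • Finsupp.mapDomain r D) ∧
      ∀ (f : F) (h : f ∈ G.O), G.ρ ⟨f, h⟩ ≠ 0 → Finsupp.mapDomain r (div f) = div (G.ρ ⟨f, h⟩) := by
  classical
  have hn' : (0 : ℤ) < n := by exact_mod_cast Nat.pos_of_ne_zero hn
  have hcongr : ∀ (v w : Place K F) (Q : Place k F'),
      (n : ℤ) ∣ T (Finsupp.single v 1) Q - T (Finsupp.single w 1) Q := by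
    intro v w Q
    have h1 := dvd_of_divisible G T hTdiv hdiv
      (D := Finsupp.single v 1 - Finsupp.single w 1)
      (by rw [map_sub, degree_single_one, degree_single_one, sub_self]) Q
    rwa [map_sub, Finsupp.sub_apply] at h1
  obtain ⟨v₀⟩ := nonempty_place (K := K) (F := F)
  -- all coefficients are divisible by `n`
  have hdvd : ∀ (v : Place K F) (Q : Place k F'), (n : ℤ) ∣ T (Finsupp.single v 1) Q := by
    by_contra hcon
    push Not at hcon
    obtain ⟨v₁, Q₁, h₁⟩ := hcon
    have hndvd : ∀ v, ¬ (n : ℤ) ∣ T (Finsupp.single v 1) Q₁ := by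
      intro v hv
      exact h₁ ((dvd_iff_dvd_of_dvd_sub (hcongr v₁ v Q₁)).mpr hv)
    have hpos : ∀ v, 0 < T (Finsupp.single v 1) Q₁ := by
      intro v
      refine lt_of_le_of_ne (hT0 v Q₁) fun h => hndvd v ?_
      have h2 : T (Finsupp.single v 1) Q₁ = 0 := h.symm
      rw [h2]
      exact dvd_zero _
    have hlt : ∀ v Q, T (Finsupp.single v 1) Q < n := by
      intro v Q
      rcases eq_or_ne Q Q₁ with rfl | hQ
      · have h1 := le_degree (hT0 v) Q
        rw [hTd] at h1
        refine lt_of_le_of_ne h1 fun h => hndvd v ?_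
        rw [h]
      · have h1 := add_le_degree (hT0 v) hQ
        rw [hTd] at h1
        have := hpos v
        omega
    have hconst : ∀ v, T (Finsupp.single v 1) = T (Finsupp.single v₀ 1) := by
      intro v
      ext Q
      obtain ⟨c, hc⟩ := hcongr v v₀ Q
      have h1 := hlt v Q
      have h2 := hlt v₀ Q
      have h3 : 0 ≤ T (Finsupp.single v 1) Q := hT0 v Q
      have h4 : 0 ≤ T (Finsupp.single v₀ 1) Q := hT0 v₀ Q
      have h5 : c = 0 := by
        have h6 : (n : ℤ) * c < n * 1 := by omega
        have h7 : (n : ℤ) * (-1) < n * c := by omega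
        have h8 := lt_of_mul_lt_mul_left h6 hn'.le
        have h9 := lt_of_mul_lt_mul_left h7 hn'.le
        omega
      rw [h5, mul_zero] at hc
      omega
    have hTD : ∀ D : Divisor K F, T D = Divisor.degree D • T (Finsupp.single v₀ 1) := by
      intro D
      induction D using Finsupp.induction with
      | zero => simp
      | single_add P m D _ _ ih =>
        have h1 : (Finsupp.single P m : Divisor K F) = m • Finsupp.single P 1 := by simp
        rw [map_add, ih, map_add, degree_single_one, h1, map_zsmul, hconst, add_smul]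
    obtain ⟨g, hg0, hg⟩ := exists_div_ne_zero (K := k) (F := F')
    obtain ⟨f, hf⟩ := G.ρ_surj g
    have h1 := hTdiv (f : F) f.2 (by rw [hf]; exact hg0)
    rw [hTD, degree_div, zero_smul] at h1
    apply hg
    have h2 : (n : ℕ) • (div (G.ρ ⟨(f : F), f.2⟩) : Divisor k F') = n • (0 : Divisor k F') := by
      rw [← h1, smul_zero]
    have h3 := smul_right_injective (Divisor k F') hn h2
    rw [← hf]
    exact h3
  choose r hr using fun v => exists_eq_nsmul_single (hT0 v) hn (hTd v) (hdvd v)
  have hTr : ∀ D, T D = n • Finsupp.mapDomain r D := by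
    intro D
    induction D using Finsupp.induction with
    | zero => simp
    | single_add P m D _ _ ih =>
      have h1 : (Finsupp.single P m : Divisor K F) = m • Finsupp.single P 1 := by simp
      rw [map_add, ih, Finsupp.mapDomain_add, smul_add, h1, map_zsmul, hr, ← h1,
        Finsupp.mapDomain_single, smul_comm m n, ← Finsupp.smul_single_one (r P) m]
  refine ⟨r, hTr, fun f h h0 => ?_⟩
  have h1 := hTdiv f h h0
  rw [hTr] at h1
  exact smul_right_injective (Divisor k F') hn h1

end Fermat.Agent.Deuring
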