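import Fermat.Agent.RR.Riemann
import Mathlib.GroupTheory.CosetCover

/-!
# The least divisor containing a finite dimensional space of functions
-/

set_option autoImplicit false

open AlgebraicCurve WithZero Module
open scoped IntermediateField
open Fermat.Agent.RR

namespace Fermat.Agent.Deuring

variable {K F : Type*} [Field K] [Field F] [Algebra K F]

/-- `E` is the least divisor with `W ≤ L(E)`. -/
def IsSup (W : Submodule K F) (E : Divisor K F) : Prop :=
  W ≤ riemannRochSpace E ∧ ∀ v : Place K F, ∃ w ∈ W, w ≠ 0 ∧ -v.ord w = E v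

theorem mem_L_iff {D : Divisor K F} {f : F} (hf : f ≠ 0) :
    f ∈ riemannRochSpace D ↔ ∀ v : Place K F, -D v ≤ v.ord f := by
  rw [mem_riemannRochSpace_iff]
  exact forall_congr' fun v => by simp [hf]

theorem mem_L_mul {D E : Divisor K F} {f g : F} (hf : f ∈ riemannRochSpace D)
    (hg : g ∈ riemannRochSpace E) : f * g ∈ riemannRochSpace (D + E) := by
  intro v
  rw [map_mul, Finsupp.add_apply, exp_add]
  exact mul_le_mul' (hf v) (hg v)

theorem L_mono {D E : Divisor K F} (h : D ≤ E) : riemannRochSpace D ≤ riemannRochSpace E := by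
  intro f hf v
  exact (hf v).trans (exp_le_exp.mpr (h v))

theorem IsSup.le_of_le {W : Submodule K F} {E E' : Divisor K F} (h : IsSup W E)
    (h' : W ≤ riemannRochSpace E') : E ≤ E' := by
  intro v
  obtain ⟨w, hw, hw0, hv⟩ := h.2 v
  have := (mem_L_iff hw0).mp (h' hw) v
  omega

theorem IsSup.mono {W W' : Submodule K F} {E E' : Divisor K F} (h : IsSup W E)
    (h' : IsSup W' E') (hWW' : W ≤ W') : E ≤ E' :=
  h.le_of_le (hWW'.trans h'.1)

theorem IsSup.unique {W : Submodule K F} {E E' : Divisor K F} (h : IsSup W E)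
    (h' : IsSup W E') : E = E' :=
  le_antisymm (h.mono h' le_rfl) (h'.mono h le_rfl)

theorem IsSup.mul {W₁ W₂ : Submodule K F} {E₁ E₂ E : Divisor K F} (h₁ : IsSup W₁ E₁)
    (h₂ : IsSup W₂ E₂) (hmul : ∀ w₁ ∈ W₁, ∀ w₂ ∈ W₂, w₁ * w₂ ∈ riemannRochSpace E) :
    E₁ + E₂ ≤ E := by
  intro v
  obtain ⟨w₁, hw₁, h10, hv₁⟩ := h₁.2 v
  obtain ⟨w₂, hw₂, h20, hv₂⟩ := h₂.2 v
  have := (mem_L_iff (mul_ne_zero h10 h20)).mp (hmul w₁ hw₁ w₂ hw₂) v
  rw [v.ord_mul h10 h20] at this
  rw [Finsupp.add_apply]
  omega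

/-- If `w ∈ F` multiplies `W` (with sup `E`) into `L(E')` then `w ∈ L(E' - E)`. -/
theorem IsSup.mem_of_mul {W : Submodule K F} {E E' : Divisor K F} (h : IsSup W E) {f : F}
    (hf : ∀ w ∈ W, f * w ∈ riemannRochSpace E') : f ∈ riemannRochSpace (E' - E) := by
  rcases eq_or_ne f 0 with rfl | hf0
  · exact Submodule.zero_mem _
  rw [mem_L_iff hf0]
  intro v
  obtain ⟨w, hw, hw0, hv⟩ := h.2 v
  have := (mem_L_iff (mul_ne_zero hf0 hw0)).mp (hf w hw) v
  rw [v.ord_mul hf0 hw0] at this
  rw [Finsupp.sub_apply]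
  omega

section

variable [HasPrincipalDivisors K F]

theorem IsSup.exists (W : Submodule K F) [FiniteDimensional K W] (hW : W ≠ ⊥) :
    ∃ E : Divisor K F, IsSup W E := by
  classical
  let b := Module.finBasis K W
  have hne : (Finset.univ : Finset (Fin (finrank K W))).Nonempty := by
    rw [Finset.univ_nonempty_iff]
    have : 0 < finrank K W := by
      rw [pos_iff_ne_zero, ne_eq, Submodule.finrank_eq_zero]
      exact hW
    exact ⟨⟨0, this⟩⟩
  let E : Divisor K F := Finset.univ.sup' hne fun i => -(div ((b i : W) : F))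
  refine ⟨E, ?_, ?_⟩
  · intro w hw
    have hb : ∀ i, ((b i : W) : F) ∈ riemannRochSpace E := by
      intro i
      have h0 : ((b i : W) : F) ≠ 0 := by
        have := b.ne_zero i
        simpa using this
      rw [mem_L_iff h0]
      intro v
      have h1 : (-(div ((b i : W) : F)) : Divisor K F) ≤ E :=
        Finset.le_sup' (fun i => -(div ((b i : W) : F) : Divisor K F)) (Finset.mem_univ i)
      have h2 := h1 v
      rw [Finsupp.neg_apply, div_apply] at h2
      omega
    have h2 : w = ∑ i, b.repr ⟨w, hw⟩ i • ((b i : W) : F) := by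
      conv_lhs => rw [show w = ((⟨w, hw⟩ : W) : F) from rfl, ← b.sum_repr ⟨w, hw⟩]
      rw [Submodule.coe_sum]
      rfl
    rw [h2]
    exact Submodule.sum_mem _ fun i _ => Submodule.smul_mem _ _ (hb i)
  · intro v
    have h3 : E v = Finset.univ.sup' hne fun i => (-(div ((b i : W) : F)) : Divisor K F) v := by
      apply Finset.apply_sup'_eq_sup'_comp hne (fun D : Divisor K F => D v)
      intro x y
      exact Finsupp.sup_apply x y v
    obtain ⟨i, _, hi⟩ := Finset.exists_mem_eq_sup' hne
      (fun i => (-(div ((b i : W) : F)) : Divisor K F) v)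
    refine ⟨b i, (b i).2, ?_, ?_⟩
    · have := b.ne_zero i
      simpa using this
    · rw [h3, hi, Finsupp.neg_apply, div_apply]

theorem IsSup.scale {W W' : Submodule K F} {E : Divisor K F} (h : IsSup W E) {f : F} (hf : f ≠ 0)
    (hW' : ∀ w, w ∈ W' ↔ f * w ∈ W) : IsSup W' (E + div f) := by
  constructor
  · intro w hw
    rcases eq_or_ne w 0 with rfl | hw0
    · exact Submodule.zero_mem _
    have h1 := h.1 ((hW' w).mp hw)
    rw [mem_L_iff (mul_ne_zero hf hw0)] at h1
    rw [mem_L_iff hw0]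
    intro v
    have := h1 v
    rw [v.ord_mul hf hw0] at this
    rw [Finsupp.add_apply, div_apply]
    omega
  · intro v
    obtain ⟨w, hw, hw0, hv⟩ := h.2 v
    refine ⟨f⁻¹ * w, (hW' _).mpr (by rwa [mul_inv_cancel_left₀ hf]),
      mul_ne_zero (inv_ne_zero hf) hw0, ?_⟩
    rw [v.ord_mul (inv_ne_zero hf) hw0, v.ord_inv, Finsupp.add_apply, div_apply]
    omega

omit [HasPrincipalDivisors K F] in
/-- Simultaneous attainment of the sup at finitely many places. -/
theorem IsSup.exists_generic [Infinite K] [hne : Nonempty (Place K F)] {W : Submodule K F}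
    {E : Divisor K F} (h : IsSup W E)
    (S : Finset (Place K F)) : ∃ w ∈ W, w ≠ 0 ∧ ∀ v ∈ S, -v.ord w = E v := by
  classical
  rcases S.eq_empty_or_nonempty with rfl | hS
  · obtain ⟨v⟩ := hne
    obtain ⟨w, hw, hw0, _⟩ := h.2 v
    exact ⟨w, hw, hw0, by simp⟩
  · let p : Place K F → Subspace K W := fun v =>
      (riemannRochSpace (E - Finsupp.single v 1)).comap W.subtype
    have hp : ∀ v, p v ≠ ⊤ := by
      intro v htop
      obtain ⟨w, hw, hw0, hv⟩ := h.2 v
      have h1 : (⟨w, hw⟩ : W) ∈ p v := htop ▸ Submodule.mem_top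
      have h2 := (mem_L_iff hw0).mp (show w ∈ riemannRochSpace (E - Finsupp.single v 1) from h1) v
      rw [Finsupp.sub_apply, Finsupp.single_eq_same] at h2
      omega
    have h3 : ⋃ q ∈ S.image p, (q : Set W) ≠ Set.univ := by
      apply Subspace.biUnion_ne_univ_of_top_notMem
      intro hmem
      obtain ⟨v, _, hv⟩ := Finset.mem_image.mp hmem
      exact hp v hv
    obtain ⟨w, hw⟩ := (Set.ne_univ_iff_exists_notMem _).mp h3
    have h4 : ∀ v ∈ S, w ∉ p v := by
      intro v hv hwp
      apply hw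
      simp only [Set.mem_iUnion]
      exact ⟨p v, Finset.mem_image_of_mem _ hv, hwp⟩
    have hw0 : (w : F) ≠ 0 := by
      intro h0
      obtain ⟨v, hv⟩ := hS
      apply h4 v hv
      have : w = 0 := Subtype.ext h0
      rw [this]
      exact Submodule.zero_mem _
    refine ⟨w, w.2, hw0, fun v hv => ?_⟩
    have h5 := (mem_L_iff hw0).mp (h.1 w.2)
    have h6 : ¬ (w : F) ∈ riemannRochSpace (E - Finsupp.single v 1) := h4 v hv
    rw [mem_L_iff hw0] at h6
    push Not at h6
    obtain ⟨u, hu⟩ := h6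
    have h7 := h5 u
    rw [Finsupp.sub_apply] at hu
    by_cases huv : u = v
    · subst huv
      rw [Finsupp.single_eq_same] at hu
      omega
    · rw [Finsupp.single_eq_of_ne huv] at hu
      omega

end

end Fermat.Agent.Deuring
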